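/-
GATE-B / CASE A, node A6 (helper35): the ABSTRACT ALGEBRA of Mazur's principle.

Pure algebra on top of Mathlib and the Boston–Lenstra–Ribet leaf `GH/S32/Blr.lean`
(itself Mathlib-only).  Dictionary (board 4901 / 4996):

* `V = Kum_p(F_M) = J₀(M)[p]`, `M = N' q`; `V' = Kum_p(F_{N'})`; `aL = α_*`, `aU = α^*`,
  `W = W_q`, `U = U_q`; `act : G_ℚ →* End V` the Galois action, `φ` a Frobenius lift at `q`;
* `ρ = ρ̄ : G_ℚ →* M₂(𝔽_p)`, `δ = det ρ̄`;
* `Q = V[𝔪]` the eigenspace of the `T_ℓ` with the eigenvalues of `ρ̄`;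
* `K12 = kerRed ⊓ kerRed₂` the toric part.

Inputs (each a node of CASE A):
* `hrel`  : Eichler–Shimura + Chebotarev on `Q`;
* `hnew`  : `Q` is killed by `α_*` and `α_* W` (old-killer is invertible on `Q`);
* `htor`  : `Q ⊆ K12`   (FP + `ob = 0` on non-Eisenstein + old-killer);
* `hA1`   : `φ ∘ W = −q` on `K12`  (A1), or only `hG1 : φ² = q²` on `K12` (on main).

Output: `q ≡ 1 (p)` and `ρ̄(φ)` scalar (A1 form);  `q ≡ −1 (p)` or that (G1 form).
-/
import Mathlib
import Fermat.Agent.GH.S32.Blr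

set_option autoImplicit false

namespace Fermat.Agent.GB.A.A6.Abs

open Matrix

/-! ### 1. BLR on a nonzero module: a scalar action forces a scalar matrix -/

section Scalar

variable {k : Type*} [Field k] {G : Type*} [Group G]
variable {Y : Type*} [AddCommGroup Y] [Module k Y]

/-- If `Y ≠ 0` satisfies the degree-2 Cayley–Hamilton relations of an absolutely irreducible
`ρ` (image spanning `M₂(k)`), every `m ∈ M₂(k)` that is a combination of `ρ g`'s acts faithfully:
in particular `act φ = c` forces `ρ φ = c`. -/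
theorem rho_eq_smul_one_of_act_eq [Nontrivial Y] (h2 : (2 : k) ≠ 0)
    (ρ : G →* Matrix (Fin 2) (Fin 2) k) (act : G →* Module.End k Y) (δ : G →* kˣ)
    (hspan : Submodule.span k (Set.range ρ) = ⊤)
    (hrel : ∀ g, act g + ((δ g : kˣ) : k) • act g⁻¹ = Matrix.trace (ρ g) • (1 : Module.End k Y))
    {φ : G} {c : k} (hφ : act φ = c • (1 : Module.End k Y)) :
    ρ φ = c • (1 : Matrix (Fin 2) (Fin 2) k) := by
  obtain ⟨Φ, hΦ⟩ := Fermat.Agent.GH.S32.Blr.exists_algHom (ρ := ρ) (act := act) (δ := δ)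
    (isUnit_iff_ne_zero.2 h2) hspan hrel
  have hinj : Function.Injective Φ := (Φ : Matrix (Fin 2) (Fin 2) k →+* Module.End k Y).injective
  apply hinj
  rw [hΦ, hφ, map_smul, map_one]

end Scalar

/-! ### 2. The same for a nonzero stable submodule -/

section Sub

variable {k : Type*} [Field k] {G : Type*} [Group G]
variable {V : Type*} [AddCommGroup V] [Module k V]

/-- restriction of a group action to a stable submodule -/
noncomputable def actSub (act : G →* Module.End k V) (Y : Submodule k V)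
    (hY : ∀ g, ∀ x ∈ Y, act g x ∈ Y) : G →* Module.End k Y where
  toFun g := (act g).restrict (hY g)
  map_one' := by
    ext x
    simp [LinearMap.restrict_apply]
  map_mul' g h := by
    ext x
    simp [LinearMap.restrict_apply, map_mul]

theorem actSub_apply (act : G →* Module.End k V) (Y : Submodule k V)
    (hY : ∀ g, ∀ x ∈ Y, act g x ∈ Y) (g : G) (x : Y) :
    ((actSub act Y hY g x : Y) : V) = act g x := rfl

theorem rho_eq_smul_one_of_submodule (h2 : (2 : k) ≠ 0)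
    (ρ : G →* Matrix (Fin 2) (Fin 2) k) (act : G →* Module.End k V) (δ : G →* kˣ)
    (hspan : Submodule.span k (Set.range ρ) = ⊤)
    (Y : Submodule k V) (hY0 : Y ≠ ⊥) (hY : ∀ g, ∀ x ∈ Y, act g x ∈ Y)
    (hrel : ∀ g, ∀ x ∈ Y, act g x + ((δ g : kˣ) : k) • act g⁻¹ x = Matrix.trace (ρ g) • x)
    {φ : G} {c : k} (hφ : ∀ x ∈ Y, act φ x = c • x) :
    ρ φ = c • (1 : Matrix (Fin 2) (Fin 2) k) := by
  have : Nontrivial Y := Submodule.nontrivial_iff_ne_bot.2 hY0
  refine rho_eq_smul_one_of_act_eq h2 ρ (actSub act Y hY) δ hspan ?_ ?_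
  · intro g
    ext x
    simp only [LinearMap.add_apply, LinearMap.smul_apply, Module.End.one_apply, Submodule.coe_add,
      Submodule.coe_smul, actSub_apply]
    exact hrel g x x.2
  · ext x
    simp only [LinearMap.smul_apply, Module.End.one_apply, Submodule.coe_smul, actSub_apply]
    exact hφ x x.2

end Sub

/-! ### 3. 2×2 matrix facts -/

section Mat

variable {k : Type*} [Field k]

theorem det_smul_one (c : k) : (c • (1 : Matrix (Fin 2) (Fin 2) k)).det = c ^ 2 := by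
  rw [Matrix.det_smul, Matrix.det_one, mul_one, Fintype.card_fin]

/-- `m² = q²`, `det m = q ≠ 0` in odd characteristic: `q = 1` and `m` scalar, or `q = −1`. -/
theorem of_sq_eq (m : Matrix (Fin 2) (Fin 2) k) (q : k) (hq0 : q ≠ 0)
    (hsq : m * m = (q ^ 2) • (1 : Matrix (Fin 2) (Fin 2) k)) (hdet : m.det = q) :
    (q = 1 ∧ ∃ c : k, m = c • (1 : Matrix (Fin 2) (Fin 2) k)) ∨ q = -1 := by
  -- Cayley–Hamilton: m² − tr(m) m + det(m) = 0
  have hCH : m * m - m.trace • m + m.det • (1 : Matrix (Fin 2) (Fin 2) k) = 0 := by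
    have := Matrix.aeval_self_charpoly m
    rw [Matrix.charpoly_fin_two] at this
    simpa [pow_two, Algebra.smul_def, sub_eq_add_neg, add_comm, add_left_comm, add_assoc] using this
  rw [hsq, hdet] at hCH
  by_cases ht : m.trace = 0
  · right
    rw [ht, zero_smul, sub_zero, ← add_smul] at hCH
    have h1 : q ^ 2 + q = 0 := by
      have := congrFun (congrFun hCH 0) 0
      simpa using this
    have h2 : q * (q + 1) = 0 := by rw [← h1]; ring
    rcases mul_eq_zero.1 h2 with h | h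
    · exact absurd h hq0
    · exact eq_neg_of_add_eq_zero_left h
  · left
    obtain ⟨c, hm⟩ : ∃ c : k, m = c • (1 : Matrix (Fin 2) (Fin 2) k) := by
      have h1 : m.trace • m = (q ^ 2 + q) • (1 : Matrix (Fin 2) (Fin 2) k) := by
        rw [add_smul]
        have := hCH
        rw [sub_add_eq_add_sub, sub_eq_zero] at this
        exact this.symm
      have h2 := congrArg (fun x => (m.trace)⁻¹ • x) h1
      simp only [smul_smul] at h2
      rw [inv_mul_cancel₀ ht, one_smul] at h2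
      exact ⟨_, h2⟩
    refine ⟨?_, c, hm⟩
    have h3 : c ^ 2 = q ^ 2 := by
      have h4 := hsq
      rw [hm, smul_mul_smul_comm, one_mul] at h4
      have := congrFun (congrFun h4 0) 0
      simpa [pow_two] using this
    have h5 : c ^ 2 = q := by rw [← det_smul_one, ← hm, hdet]
    have h6 : q * (q - 1) = 0 := by
      have : q ^ 2 = q := by rw [← h3, h5]
      rw [mul_sub, mul_one, ← pow_two, this, sub_self]
    rcases mul_eq_zero.1 h6 with h | h
    · exact absurd h hq0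
    · exact sub_eq_zero.1 h

end Mat

/-! ### 4. The abstract CASE A lemma -/

section CaseA

variable {k : Type*} [Field k] {G : Type*} [Group G]
variable {V V' : Type*} [AddCommGroup V] [Module k V] [AddCommGroup V']

/-- **CASE A, abstract, (G1)-form** (everything on main at the time of writing): if the
`ρ̄`-eigenspace `Q ≠ 0` lies in the toric part `K12`, on which `φ² = q²`, then
`q = 1` in `k` and `ρ̄(φ)` is scalar, or `q = −1` in `k`. -/
theorem caseA_abs_G1 (h2 : (2 : k) ≠ 0)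
    (act : G →* Module.End k V) (ρ : G →* Matrix (Fin 2) (Fin 2) k) (δ : G →* kˣ)
    (hspan : Submodule.span k (Set.range ρ) = ⊤)
    (Q : Submodule k V) (hQ0 : Q ≠ ⊥) (hQG : ∀ g, ∀ x ∈ Q, act g x ∈ Q)
    (hrel : ∀ g, ∀ x ∈ Q, act g x + ((δ g : kˣ) : k) • act g⁻¹ x = Matrix.trace (ρ g) • x)
    (K12 : Set V) (htor : ∀ x ∈ Q, x ∈ K12)
    (φ : G) (q : k) (hq0 : q ≠ 0)
    (hG1 : ∀ z ∈ K12, act φ (act φ z) = (q ^ 2) • z)
    (hdet : (ρ φ).det = q) :
    (q = 1 ∧ ∃ c : k, ρ φ = c • (1 : Matrix (Fin 2) (Fin 2) k)) ∨ q = -1 := by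
  have hsq : ρ (φ * φ) = (q ^ 2) • (1 : Matrix (Fin 2) (Fin 2) k) :=
    rho_eq_smul_one_of_submodule h2 ρ act δ hspan Q hQ0 hQG hrel (fun x hx => by
      rw [map_mul, Module.End.mul_apply]
      exact hG1 x (htor x hx))
  rw [map_mul] at hsq
  exact of_sq_eq (ρ φ) q hq0 hsq hdet

/-- **CASE A, abstract, (A1)-form**: if moreover `φ ∘ W = −q` on `K12`, `Q` is new
(`α_* = 0 = α_* W` on `Q`) and `α^* α_* = 1 + U W`, then `q = 1` in `k` and `ρ̄(φ)` is scalar. -/
theorem caseA_abs_A1 (h2 : (2 : k) ≠ 0)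
    (act : G →* Module.End k V) (ρ : G →* Matrix (Fin 2) (Fin 2) k) (δ : G →* kˣ)
    (hspan : Submodule.span k (Set.range ρ) = ⊤)
    (Q : Submodule k V) (hQ0 : Q ≠ ⊥) (hQG : ∀ g, ∀ x ∈ Q, act g x ∈ Q)
    (hrel : ∀ g, ∀ x ∈ Q, act g x + ((δ g : kˣ) : k) • act g⁻¹ x = Matrix.trace (ρ g) • x)
    (aL : V →+ V') (aU : V' →+ V) (W U : Module.End k V)
    (hTR : ∀ x, aU (aL x) = x + U (W x)) (hWW : ∀ x, W (W x) = x)
    (hUG : ∀ g x, U (act g x) = act g (U x))
    (hQW : ∀ x ∈ Q, W x ∈ Q)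
    (hnew : ∀ x ∈ Q, aL x = 0 ∧ aL (W x) = 0)
    (K12 : Set V) (htor : ∀ x ∈ Q, x ∈ K12)
    (φ : G) (q : k) (hq0 : q ≠ 0)
    (hA1 : ∀ z ∈ K12, act φ (W z) = -(q • z))
    (hdet : (ρ φ).det = q) :
    q = 1 ∧ ∃ c : k, ρ φ = c • (1 : Matrix (Fin 2) (Fin 2) k) := by
  -- on `Q`: `U W = −1`, `U = −W`, `U² = 1`, `φ = q U`
  have hUW : ∀ y ∈ Q, U (W y) = -y := fun y hy => by
    have h := hTR y
    rw [(hnew y hy).1, map_zero] at h
    exact (neg_eq_of_add_eq_zero_right h.symm).symm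
  have hU : ∀ y ∈ Q, U y = -W y := fun y hy => by
    have h := hUW (W y) (hQW y hy)
    rwa [hWW] at h
  have hUQ : ∀ y ∈ Q, U y ∈ Q := fun y hy => by
    rw [hU y hy]; exact Q.neg_mem (hQW y hy)
  have hUU : ∀ y ∈ Q, U (U y) = y := fun y hy => by
    rw [hU y hy, map_neg, hUW y hy, neg_neg]
  have hφ : ∀ y ∈ Q, act φ y = q • U y := fun y hy => by
    have h := hA1 (W y) (htor _ (hQW y hy))
    rw [hWW] at h
    rw [h, hU y hy, smul_neg]
  -- the two eigenspaces of `U` on `Q`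
  let Y : k → Submodule k V := fun a =>
    { carrier := {y | y ∈ Q ∧ U y = a • y}
      add_mem' := by
        rintro x y ⟨hx, hx'⟩ ⟨hy, hy'⟩
        exact ⟨Q.add_mem hx hy, by rw [map_add, hx', hy', smul_add]⟩
      zero_mem' := ⟨Q.zero_mem, by rw [map_zero, smul_zero]⟩
      smul_mem' := by
        rintro c x ⟨hx, hx'⟩
        exact ⟨Q.smul_mem c hx, by rw [map_smul, hx', smul_comm]⟩ }
  have hYG : ∀ a g, ∀ x ∈ Y a, act g x ∈ Y a := by
    rintro a g x ⟨hx, hx'⟩
    exact ⟨hQG g x hx, by rw [hUG, hx', map_smul]⟩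
  have hYrel : ∀ a g, ∀ x ∈ Y a,
      act g x + ((δ g : kˣ) : k) • act g⁻¹ x = Matrix.trace (ρ g) • x :=
    fun a g x hx => hrel g x hx.1
  have hYφ : ∀ a, ∀ x ∈ Y a, act φ x = (q * a) • x := by
    rintro a x ⟨hx, hx'⟩
    rw [hφ x hx, hx', smul_smul]
  -- one of them is nonzero
  have hex : ∃ a : k, a ^ 2 = 1 ∧ Y a ≠ ⊥ := by
    obtain ⟨y, hyQ, hy0⟩ := (Submodule.ne_bot_iff Q).1 hQ0
    by_cases h : y + U y = 0
    · refine ⟨-1, by ring, ?_⟩
      rw [Submodule.ne_bot_iff]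
      refine ⟨y, ⟨hyQ, ?_⟩, hy0⟩
      rw [neg_one_smul]
      exact (neg_eq_of_add_eq_zero_right h).symm
    · refine ⟨1, by ring, ?_⟩
      rw [Submodule.ne_bot_iff]
      refine ⟨y + U y, ⟨Q.add_mem hyQ (hUQ y hyQ), ?_⟩, h⟩
      rw [map_add, hUU y hyQ, one_smul, add_comm]
  obtain ⟨a, ha, hYa⟩ := hex
  have hscal : ρ φ = (q * a) • (1 : Matrix (Fin 2) (Fin 2) k) :=
    rho_eq_smul_one_of_submodule h2 ρ act δ hspan (Y a) hYa (hYG a) (hYrel a) (hYφ a)
  refine ⟨?_, q * a, hscal⟩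
  have h1 : (q * a) ^ 2 = q := by rw [← det_smul_one, ← hscal, hdet]
  have h2' : q * (q - 1) = 0 := by
    have h3 : q ^ 2 = q := by
      have h4 := h1
      rw [mul_pow, ha, mul_one] at h4
      exact h4
    rw [mul_sub, mul_one, ← pow_two, h3, sub_self]
  rcases mul_eq_zero.1 h2' with h | h
  · exact absurd h hq0
  · exact sub_eq_zero.1 h

end CaseA

end Fermat.Agent.GB.A.A6.Abs
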