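/-
GATE-B / CASE A, node A6, leaf (E1-abs) (helper35): determinant and trace of a two-dimensional
representation from QUADRATIC RELATIONS on a dense set — Weil-pairing-free.

Mathlib-only.  `ρ : G →* M₂(k)`, `χ : G →* kˣ`.  Hypothesis `(Fr)`: every `g ∈ G` is, jointly for
`(ρ, χ)`, conjugate to some `τ` with `ρ(τ)² − a ρ(τ) + χ(τ) = 0` for some `a ∈ k`
(Chebotarev + the Frobenius relation on `E[p]`).

* `det_eq_of_frob` : if some `ρ(g₀)` is not scalar then `det ρ = χ` on all of `G`;
* `trace_eq_of_quadratic` : then `m² − a m + χ = 0` for `m = ρ(τ)` forces `tr ρ(τ) = a`;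
* `span_eq_top_of_involution` : an irreducible image containing a non-scalar involution spans
  `M₂(k)` (oddness ⟹ absolute irreducibility), the `hspan` input of Boston–Lenstra–Ribet.
-/
import Mathlib

set_option autoImplicit false

namespace Fermat.Agent.GB.A.A6.DetAbs

open Matrix

variable {k : Type*} [Field k]

/-! ### 2×2 matrices -/

/-- Cayley–Hamilton for 2×2 matrices. -/
theorem cayley_two (m : Matrix (Fin 2) (Fin 2) k) :
    m * m - m.trace • m + m.det • (1 : Matrix (Fin 2) (Fin 2) k) = 0 := by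
  have := Matrix.aeval_self_charpoly m
  rw [Matrix.charpoly_fin_two] at this
  simpa [pow_two, Algebra.smul_def, sub_eq_add_neg, add_comm, add_left_comm, add_assoc] using this

/-- `m` is a scalar matrix -/
def IsScalar (m : Matrix (Fin 2) (Fin 2) k) : Prop := ∃ c : k, m = c • (1 : Matrix (Fin 2) (Fin 2) k)

theorem isScalar_conj {m u v : Matrix (Fin 2) (Fin 2) k} (_huv : u * v = 1) (hvu : v * u = 1)
    (h : IsScalar (u * m * v)) : IsScalar m := by
  obtain ⟨c, hc⟩ := h
  refine ⟨c, ?_⟩
  have : m = v * (u * m * v) * u := by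
    rw [mul_assoc u m v, ← mul_assoc v u, hvu, one_mul, mul_assoc, hvu, mul_one]
  rw [this, hc, Matrix.mul_smul, Matrix.smul_mul, mul_one, hvu]

/-- a non-scalar matrix killed by `X² − aX + d` has trace `a` and determinant `d` -/
theorem trace_det_of_quadratic {m : Matrix (Fin 2) (Fin 2) k} (hns : ¬ IsScalar m) {a d : k}
    (h : m * m - a • m + d • (1 : Matrix (Fin 2) (Fin 2) k) = 0) : m.trace = a ∧ m.det = d := by
  have hCH := cayley_two m
  -- subtract: (a − tr) m = (d − det) • 1 ... written as (tr − a) m = (det − d) • 1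
  have hsub : (m.trace - a) • m = (m.det - d) • (1 : Matrix (Fin 2) (Fin 2) k) := by
    ext i j
    have h1 := congrFun (congrFun h i) j
    have h2 := congrFun (congrFun hCH i) j
    simp only [Matrix.add_apply, Matrix.sub_apply, Matrix.smul_apply, smul_eq_mul,
      Matrix.zero_apply] at h1 h2
    simp only [Matrix.smul_apply, smul_eq_mul]
    linear_combination h1 - h2
  have htr : m.trace = a := by
    by_contra hne
    have hne' : m.trace - a ≠ 0 := sub_ne_zero.2 hne
    apply hns
    refine ⟨(m.trace - a)⁻¹ * (m.det - d), ?_⟩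
    have := congrArg (fun x => (m.trace - a)⁻¹ • x) hsub
    simp only [smul_smul] at this
    rw [inv_mul_cancel₀ hne', one_smul] at this
    exact this
  refine ⟨htr, ?_⟩
  rw [htr, sub_self, zero_smul] at hsub
  have := congrFun (congrFun hsub 0) 0
  simp only [Matrix.zero_apply, Matrix.smul_apply, Matrix.one_apply_eq, smul_eq_mul, mul_one] at this
  exact (sub_eq_zero.1 this.symm)

/-- for an invertible `m` with `m² − a m + det m = 0`: `tr m = a`. -/
theorem trace_eq_of_quadratic {m : Matrix (Fin 2) (Fin 2) k} (hdet : m.det ≠ 0) {a : k}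
    (h : m * m - a • m + m.det • (1 : Matrix (Fin 2) (Fin 2) k) = 0) : m.trace = a := by
  have hCH := cayley_two m
  have h1 : (m.trace - a) • m = 0 := by
    ext i j
    have h1 := congrFun (congrFun h i) j
    have h2 := congrFun (congrFun hCH i) j
    simp only [Matrix.add_apply, Matrix.sub_apply, Matrix.smul_apply, smul_eq_mul,
      Matrix.zero_apply] at h1 h2
    simp only [Matrix.smul_apply, smul_eq_mul, Matrix.zero_apply]
    linear_combination h1 - h2
  by_contra hne
  have hne' : m.trace - a ≠ 0 := sub_ne_zero.2 hne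
  have hm0 : m = 0 := by
    have := congrArg (fun x => (m.trace - a)⁻¹ • x) h1
    simp only [smul_smul, smul_zero] at this
    rwa [inv_mul_cancel₀ hne', one_smul] at this
  rw [hm0, Matrix.det_zero] at hdet
  exact hdet rfl

/-! ### The determinant from quadratic relations -/

section Det

variable {G : Type*} [Group G] (ρ : G →* Matrix (Fin 2) (Fin 2) k) (χ : G →* kˣ)

/-- **det ρ = χ**, from: every `g` is jointly conjugate to a `τ` with
`ρ(τ)² − a ρ(τ) + χ(τ) = 0`, and some `ρ(g₀)` is not scalar. -/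
theorem det_eq_of_frob
    (hFr : ∀ g : G, ∃ (h τ : G) (a : k), ρ τ = ρ (h * g * h⁻¹) ∧ χ τ = χ g ∧
      ρ τ * ρ τ - a • ρ τ + ((χ τ : kˣ) : k) • (1 : Matrix (Fin 2) (Fin 2) k) = 0)
    (hns : ∃ g₀ : G, ¬ IsScalar (ρ g₀)) (g : G) : (ρ g).det = ((χ g : kˣ) : k) := by
  -- non-scalar case
  have key : ∀ g : G, ¬ IsScalar (ρ g) → (ρ g).det = ((χ g : kˣ) : k) := by
    intro g hg
    obtain ⟨h, τ, a, hρ, hχ, hq⟩ := hFr g
    have hinv1 : ρ h * ρ h⁻¹ = 1 := by rw [← map_mul, mul_inv_cancel, map_one]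
    have hinv2 : ρ h⁻¹ * ρ h = 1 := by rw [← map_mul, inv_mul_cancel, map_one]
    have hτns : ¬ IsScalar (ρ τ) := by
      intro hs
      apply hg
      rw [hρ, map_mul, map_mul] at hs
      exact isScalar_conj hinv1 hinv2 hs
    have hd := (trace_det_of_quadratic hτns hq).2
    have : (ρ g).det = (ρ τ).det := by
      have hdd : (ρ h).det * (ρ h⁻¹).det = 1 := by rw [← Matrix.det_mul, hinv1, Matrix.det_one]
      rw [hρ, map_mul, map_mul, Matrix.det_mul, Matrix.det_mul, mul_right_comm, hdd, one_mul]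
    rw [this, hd, hχ]
  by_cases hg : IsScalar (ρ g)
  · obtain ⟨g₀, hg₀⟩ := hns
    have hgg₀ : ¬ IsScalar (ρ (g * g₀)) := by
      obtain ⟨c, hc⟩ := hg
      intro hs
      obtain ⟨c', hc'⟩ := hs
      rw [map_mul, hc, Matrix.smul_mul, one_mul] at hc'
      have hdet1 : (ρ g).det * (ρ g⁻¹).det = 1 := by
        rw [← Matrix.det_mul, ← map_mul, mul_inv_cancel, map_one, Matrix.det_one]
      have hc0 : c ≠ 0 := by
        rintro rfl
        rw [hc, zero_smul, Matrix.det_zero, zero_mul] at hdet1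
        exact zero_ne_one hdet1
      apply hg₀
      refine ⟨c⁻¹ * c', ?_⟩
      have := congrArg (fun x => c⁻¹ • x) hc'
      simp only [smul_smul] at this
      rwa [inv_mul_cancel₀ hc0, one_smul] at this
    have h1 := key (g * g₀) hgg₀
    have h2 := key g₀ hg₀
    rw [map_mul, Matrix.det_mul, map_mul, Units.val_mul, h2] at h1
    have hχ0 : ((χ g₀ : kˣ) : k) ≠ 0 := Units.ne_zero _
    exact mul_right_cancel₀ hχ0 h1
  · exact key g hg

end Det

/-! ### Oddness ⟹ the image spans `M₂(k)` -/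

section Span

variable {G : Type*} [Group G] (ρ : G →* Matrix (Fin 2) (Fin 2) k)

/-- If `ρ(c) = diag(1, −1)` for some `c`, and neither coordinate line is stable, the image of `ρ`
spans `M₂(k)`. -/
theorem span_eq_top_of_diag (h2 : (2 : k) ≠ 0) {c : G}
    (hc : ρ c = Matrix.single 0 0 (1 : k) - Matrix.single 1 1 (1 : k))
    (h21 : ∃ g, ρ g 1 0 ≠ 0) (h12 : ∃ g, ρ g 0 1 ≠ 0) :
    Submodule.span k (Set.range ρ) = ⊤ := by
  set B := Submodule.span k (Set.range ρ) with hB
  have hmem : ∀ g, ρ g ∈ B := fun g => Submodule.subset_span ⟨g, rfl⟩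
  have hmul : ∀ x ∈ B, ∀ y ∈ B, x * y ∈ B := by
    intro x hx y hy
    refine Submodule.span_induction (p := fun x _ => x * y ∈ B) ?_ ?_ ?_ ?_ hx
    · rintro _ ⟨g, rfl⟩
      refine Submodule.span_induction (p := fun y _ => ρ g * y ∈ B) ?_ ?_ ?_ ?_ hy
      · rintro _ ⟨g', rfl⟩
        rw [← map_mul]; exact hmem _
      · rw [mul_zero]; exact B.zero_mem
      · intro a b _ _ ha hb
        rw [mul_add]; exact B.add_mem ha hb
      · intro r a _ ha
        rw [Matrix.mul_smul]; exact B.smul_mem r ha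
    · rw [zero_mul]; exact B.zero_mem
    · intro a b _ _ ha hb
      rw [add_mul]; exact B.add_mem ha hb
    · intro r a _ ha
      rw [Matrix.smul_mul]; exact B.smul_mem r ha
  have hone : (1 : Matrix (Fin 2) (Fin 2) k) = Matrix.single 0 0 (1 : k) + Matrix.single 1 1 (1 : k) := by
    ext i j
    fin_cases i <;> fin_cases j <;> simp [Matrix.single]
  have h1 : (1 : Matrix (Fin 2) (Fin 2) k) ∈ B := by rw [← map_one ρ]; exact hmem 1
  have hcB : Matrix.single 0 0 (1 : k) - Matrix.single 1 1 (1 : k) ∈ B := hc ▸ hmem c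
  have hE11 : Matrix.single 0 0 (1 : k) ∈ B := by
    have : Matrix.single 0 0 (1 : k)
        = (2 : k)⁻¹ • ((1 : Matrix (Fin 2) (Fin 2) k)
          + (Matrix.single 0 0 (1 : k) - Matrix.single 1 1 (1 : k))) := by
      rw [hone, add_add_sub_cancel, ← two_smul k, smul_smul, inv_mul_cancel₀ h2, one_smul]
    rw [this]
    exact B.smul_mem _ (B.add_mem h1 hcB)
  have hE22 : Matrix.single 1 1 (1 : k) ∈ B := by
    have : Matrix.single 1 1 (1 : k)
        = (2 : k)⁻¹ • ((1 : Matrix (Fin 2) (Fin 2) k)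
          - (Matrix.single 0 0 (1 : k) - Matrix.single 1 1 (1 : k))) := by
      rw [hone, add_sub_sub_cancel, ← two_smul k, smul_smul, inv_mul_cancel₀ h2, one_smul]
    rw [this]
    exact B.smul_mem _ (B.sub_mem h1 hcB)
  have hE21 : Matrix.single 1 0 (1 : k) ∈ B := by
    obtain ⟨g, hg⟩ := h21
    have hprod := hmul _ (hmul _ hE22 _ (hmem g)) _ hE11
    rw [Matrix.single_mul_mul_single, one_mul, mul_one] at hprod
    have h3 := B.smul_mem (ρ g 1 0)⁻¹ hprod
    rwa [Matrix.smul_single, smul_eq_mul, inv_mul_cancel₀ hg] at h3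
  have hE12 : Matrix.single 0 1 (1 : k) ∈ B := by
    obtain ⟨g, hg⟩ := h12
    have hprod := hmul _ (hmul _ hE11 _ (hmem g)) _ hE22
    rw [Matrix.single_mul_mul_single, one_mul, mul_one] at hprod
    have h3 := B.smul_mem (ρ g 0 1)⁻¹ hprod
    rwa [Matrix.smul_single, smul_eq_mul, inv_mul_cancel₀ hg] at h3
  rw [eq_top_iff]
  intro m _
  rw [Matrix.matrix_eq_sum_single m]
  refine B.sum_mem fun i _ => B.sum_mem fun j _ => ?_
  have hs : Matrix.single i j (m i j) = m i j • Matrix.single i j (1 : k) := by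
    rw [Matrix.smul_single, smul_eq_mul, mul_one]
  rw [hs]
  refine B.smul_mem _ ?_
  fin_cases i <;> fin_cases j
  · exact hE11
  · exact hE12
  · exact hE21
  · exact hE22

end Span

end Fermat.Agent.GB.A.A6.DetAbs
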