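/-
GATE-B / CASE A, node A6, leaf (E1) (helper35): the mod `p` representation of an integral
Weierstrass curve `W/ℤ` with `W[p]` irreducible, `p` odd — determinant, Frobenius traces and
absolute irreducibility, WITHOUT the Weil pairing.

`V = W(ℚ̄)[p]` (prelude shape `Submodule.torsionBy ℤ ((W_ℚ)⁄ℚ̄).Point p`), `rhoM b` the matrix of
the Galois action in a basis `b`.

* `hFr` : every `g ∈ G_ℚ` is jointly (for `W[p]` and `μ_p`) conjugate to a Frobenius lift at a good
  prime, which satisfies `X² − a_ℓ X + ℓ` (`GE/Top/ECFinal.frobRel`) — Chebotarev in existence form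
  (`GP/TW/ChebExist`);
* `det_rhoM` : `det ρ̄(g) = χ_p(g)` for all `g`;
* `trace_rhoM_frob` : `tr ρ̄(Frob_ℓ) = a_ℓ(W)` at every good `ℓ ≠ p`;
* `exists_basis_span_eq_top` : in an eigenbasis of complex conjugation the image spans `M₂(𝔽_p)`.
-/
import Fermat.Agent.GB.A.A6.DetAbs
import Fermat.Agent.GP.TW.ChebExist
import Fermat.Agent.GJ.CycChar
import Fermat.Agent.GJ.Pkg
import Fermat.Agent.GE.Top.ECFinal
import Fermat.Agent.GE.Tors.Cor
import Fermat.Agent.GP.Loc.Arch
import Fermat.Prelude.Def_FLTPrelim_ModularRep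

set_option autoImplicit false

open scoped WeierstrassCurve.Affine
open Fermat.Agent.Common_helper32

namespace Fermat.Agent.GB.A.A6.ECDet

open WeierstrassCurve WeierstrassCurve.Affine.Point Fermat.Agent.GE.ECAssembly
open Fermat.Agent.GJ.CycChar Fermat.Agent.GB.A.A6.DetAbs

variable (W : WeierstrassCurve ℤ) (p : ℕ) [Fact p.Prime]

/-- `W(ℚ̄)[p]` in the prelude's shape. -/
abbrev Tp : Type := Submodule.torsionBy ℤ ((W.map (Int.castRingHom ℚ))⁄Qb).Point p

/-- the Galois action on `W[p]` (prelude term) -/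
noncomputable abbrev rho : GQ →* Module.End (ZMod p) (Tp W p) :=
  galoisRepModuleEnd (K := Qb) ℚ (W.map (Int.castRingHom ℚ)) p

variable {W p}

/-- the matrix representation in a basis `b` -/
noncomputable def rhoM (b : Module.Basis (Fin 2) (ZMod p) (Tp W p)) :
    GQ →* Matrix (Fin 2) (Fin 2) (ZMod p) :=
  ((LinearMap.toMatrixAlgEquiv b : Module.End (ZMod p) (Tp W p) ≃ₐ[ZMod p] _) :
    Module.End (ZMod p) (Tp W p) →* Matrix (Fin 2) (Fin 2) (ZMod p)).comp (rho W p)

theorem rhoM_apply (b : Module.Basis (Fin 2) (ZMod p) (Tp W p)) (g : GQ) :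
    rhoM b g = LinearMap.toMatrixAlgEquiv b (rho W p g) := rfl

theorem rhoM_eq_smul_one_iff (b : Module.Basis (Fin 2) (ZMod p) (Tp W p)) (g : GQ) (c : ZMod p) :
    rhoM b g = c • (1 : Matrix (Fin 2) (Fin 2) (ZMod p)) ↔
      rho W p g = c • (1 : Module.End (ZMod p) (Tp W p)) := by
  rw [rhoM_apply]
  constructor
  · intro h
    apply (LinearMap.toMatrixAlgEquiv b).injective
    rw [h, map_smul, map_one]
  · intro h
    rw [h, map_smul, map_one]


/-! ### Finiteness and rank -/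

section Rank

variable (hcard : Nat.card (Tp W p) = p ^ 2)
include hcard

theorem finite_Tp : Finite (Tp W p) := by
  apply Nat.finite_of_card_ne_zero
  rw [hcard]
  exact pow_ne_zero 2 (Fact.out : p.Prime).ne_zero

theorem finrank_Tp : Module.finrank (ZMod p) (Tp W p) = 2 := by
  have := finite_Tp hcard
  have : Module.Finite (ZMod p) (Tp W p) := Module.Finite.of_finite
  have h := Module.natCard_eq_pow_finrank (K := ZMod p) (V := Tp W p)
  rw [hcard, Nat.card_zmod] at h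
  exact (Nat.pow_right_injective (Fact.out : p.Prime).two_le h).symm

theorem finiteLevel_rho : GaloisFactorsThroughFiniteLevel (rho W p) := by
  have := finite_Tp hcard
  exact Fermat.Agent.GJ.Pkg.finiteLevel_galoisRepModuleEnd (W.map (Int.castRingHom ℚ)) p

end Rank

/-! ### The Frobenius relation in matrix form -/

/-- the Frobenius relation of `GE/Top/ECFinal`, in `End (W[p])` -/
theorem rho_frob_rel {ℓ : ℕ} (hℓ : ℓ.Prime) (hℓp : ℓ ≠ p) (hgood : W.IsGoodPrimeFor ℓ)
    (A : ValuationSubring Qb) (hA : A.LiesOverPrime ℓ) (τ : GQ) (hτ : A.IsFrobeniusAt τ ℓ) :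
    rho W p τ * rho W p τ - ((W.apOfModel ℓ : ℤ) : ZMod p) • rho W p τ
      + (ℓ : ZMod p) • (1 : Module.End (ZMod p) (Tp W p)) = 0 := by
  refine LinearMap.ext fun x => ?_
  have hx : (p ^ 1) • (x : (EQb W).Point) = 0 := by
    rw [pow_one]
    have := x.2
    rw [Submodule.mem_torsionBy_iff] at this
    rwa [natCast_zsmul] at this
  have h := Fermat.Agent.GE.ECFinal.frobRel W (Fact.out : p.Prime) 1 ℓ hℓ hℓp hgood A hA τ hτ
    (x : (EQb W).Point) hx
  simp only [LinearMap.add_apply, LinearMap.sub_apply, Module.End.mul_apply, LinearMap.smul_apply,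
    Module.End.one_apply, galoisRepModuleEnd_apply, LinearMap.zero_apply]
  rw [Int.cast_smul_eq_zsmul (ZMod p), Nat.cast_smul_eq_nsmul (ZMod p)]
  apply Subtype.ext
  rw [Submodule.coe_add, Submodule.coe_sub, Submodule.coe_smul, AddSubmonoidClass.coe_nsmul,
    ZeroMemClass.coe_zero, ← natCast_zsmul]
  exact h

theorem rhoM_frob_rel (b : Module.Basis (Fin 2) (ZMod p) (Tp W p)) {ℓ : ℕ} (hℓ : ℓ.Prime)
    (hℓp : ℓ ≠ p) (hgood : W.IsGoodPrimeFor ℓ)
    (A : ValuationSubring Qb) (hA : A.LiesOverPrime ℓ) (τ : GQ) (hτ : A.IsFrobeniusAt τ ℓ) :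
    rhoM b τ * rhoM b τ - ((W.apOfModel ℓ : ℤ) : ZMod p) • rhoM b τ
      + (ℓ : ZMod p) • (1 : Matrix (Fin 2) (Fin 2) (ZMod p)) = 0 := by
  have h := congrArg (LinearMap.toMatrixAlgEquiv b) (rho_frob_rel hℓ hℓp hgood A hA τ hτ)
  rw [map_add, map_sub, map_mul, map_smul, map_smul, map_one, _root_.map_zero] at h
  exact h


/-! ### Chebotarev: every element is jointly conjugate to a good Frobenius -/

section Cheb

variable (hΔ : W.Δ ≠ 0) (hcard : Nat.card (Tp W p) = p ^ 2)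
include hΔ hcard

/-- **(Fr)** for `W[p]`: for every `g` and every finite set `B` of primes there are a good prime
`ℓ ∉ B`, `ℓ ≠ p`, a Frobenius lift `τ` at `ℓ` and `h` with `ρ̄(τ) = ρ̄(h g h⁻¹)`, `χ(τ) = χ(g)`. -/
theorem exists_frob_conj (g : GQ) (B : Finset ℕ) :
    ∃ (ℓ : ℕ) (A : ValuationSubring Qb) (τ h : GQ), ℓ.Prime ∧ ℓ ∉ B ∧ ℓ ≠ p ∧
      W.IsGoodPrimeFor ℓ ∧ A.LiesOverPrime ℓ ∧ A.IsFrobeniusAt τ ℓ ∧
      rho W p τ = rho W p (h * g * h⁻¹) ∧ cyc p τ = cyc p g := by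
  classical
  have hR := Fermat.Agent.GP.TW.ChebExist.factorsThroughFiniteLevel_prod (rho W p) (cyc p)
    (finiteLevel_rho hcard) (cyc_finiteLevel p)
  obtain ⟨ℓ, hℓ, hℓB, hall⟩ := Fermat.Agent.GP.TW.ChebExist.exists_prime_forall_frob
    ((rho W p).prod (cyc p)) hR g (B ∪ insert p W.Δ.natAbs.primeFactors)
  rw [Finset.mem_union, not_or] at hℓB
  obtain ⟨hℓp, hgood⟩ := good_of_not_mem W hΔ hℓ hℓB.2
  obtain ⟨A, τ, hA, hτ⟩ := exists_isFrobeniusAt ℓ hℓ
  obtain ⟨h, hh⟩ := hall A τ hA hτ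
  rw [MonoidHom.prod_apply, MonoidHom.prod_apply, Prod.mk.injEq] at hh
  refine ⟨ℓ, A, τ, h, hℓ, hℓB.1, hℓp, hgood, hA, hτ, hh.1, ?_⟩
  rw [hh.2, map_mul, map_mul, map_inv, mul_comm, ← mul_assoc, inv_mul_cancel, one_mul]

theorem hFr (b : Module.Basis (Fin 2) (ZMod p) (Tp W p)) (g : GQ) :
    ∃ (h τ : GQ) (a : ZMod p), rhoM b τ = rhoM b (h * g * h⁻¹) ∧ cyc p τ = cyc p g ∧
      rhoM b τ * rhoM b τ - a • rhoM b τ
        + ((cyc p τ : (ZMod p)ˣ) : ZMod p) • (1 : Matrix (Fin 2) (Fin 2) (ZMod p)) = 0 := by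
  obtain ⟨ℓ, A, τ, h, hℓ, -, hℓp, hgood, hA, hτ, hρ, hχ⟩ := exists_frob_conj hΔ hcard g ∅
  refine ⟨h, τ, ((W.apOfModel ℓ : ℤ) : ZMod p), ?_, hχ, ?_⟩
  · rw [rhoM_apply, rhoM_apply, hρ]
  · rw [cyc_frob hℓ hℓp hA hτ]
    exact rhoM_frob_rel b hℓ hℓp hgood A hA τ hτ

end Cheb


/-! ### Irreducibility: no stable line -/

section Irr

variable (hcard : Nat.card (Tp W p) = p ^ 2) (hirr : W.ModRepIsIrreducible p)
include hcard hirr

theorem exists_not_mem_span {x : Tp W p} (hx : x ≠ 0) :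
    ∃ g : GQ, rho W p g x ∉ Submodule.span (ZMod p) {x} := by
  by_contra hcon
  push Not at hcon
  have hst : IsGaloisStable (K := Qb) ℚ (Submodule.span (ZMod p) {x}) := by
    intro σ y hy
    obtain ⟨r, rfl⟩ := Submodule.mem_span_singleton.1 hy
    have h1 : σ • (r • x) = r • (rho W p σ x) := by
      rw [← galoisRepModuleEnd_apply (S := ℚ), map_smul]
    rw [h1]
    exact Submodule.smul_mem _ r (hcon σ)
  rcases hirr.2 _ hst with h | h
  · have : x ∈ Submodule.span (ZMod p) {x} := Submodule.mem_span_singleton_self x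
    rw [h, Submodule.mem_bot] at this
    exact hx this
  · have h2 := finrank_Tp hcard
    have := finite_Tp hcard
    have hfin : Module.Finite (ZMod p) (Tp W p) := Module.Finite.of_finite
    have h3 : Module.finrank (ZMod p) (Submodule.span (ZMod p) {x}) ≤ 1 :=
      (finrank_span_le_card ({x} : Set (Tp W p))).trans (by simp)
    rw [h, finrank_top, h2] at h3
    omega

theorem exists_not_isScalar (b : Module.Basis (Fin 2) (ZMod p) (Tp W p)) :
    ∃ g₀ : GQ, ¬ IsScalar (rhoM b g₀) := by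
  obtain ⟨g, hg⟩ := exists_not_mem_span hcard hirr (b.ne_zero 0)
  refine ⟨g, fun ⟨c, hc⟩ => hg ?_⟩
  rw [rhoM_eq_smul_one_iff] at hc
  rw [hc, LinearMap.smul_apply, Module.End.one_apply]
  exact Submodule.smul_mem _ c (Submodule.mem_span_singleton_self _)

end Irr

/-! ### Determinant and traces -/

section DetTrace

variable (hΔ : W.Δ ≠ 0) (hcard : Nat.card (Tp W p) = p ^ 2) (hirr : W.ModRepIsIrreducible p)
include hΔ hcard hirr

/-- **`det ρ̄_{W,p} = χ_p`** (no Weil pairing). -/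
theorem det_rhoM (b : Module.Basis (Fin 2) (ZMod p) (Tp W p)) (g : GQ) :
    (rhoM b g).det = ((cyc p g : (ZMod p)ˣ) : ZMod p) :=
  det_eq_of_frob (rhoM b) (cyc p) (hFr hΔ hcard b) (exists_not_isScalar hcard hirr b) g

theorem det_rho (g : GQ) : LinearMap.det (rho W p g) = ((cyc p g : (ZMod p)ˣ) : ZMod p) := by
  have := finite_Tp hcard
  have hfin : Module.Finite (ZMod p) (Tp W p) := Module.Finite.of_finite
  let b : Module.Basis (Fin 2) (ZMod p) (Tp W p) :=
    Module.finBasisOfFinrankEq (ZMod p) (Tp W p) (finrank_Tp hcard)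
  rw [← det_rhoM hΔ hcard hirr b g, rhoM_apply]
  exact (LinearMap.det_toMatrix b _).symm

/-- **`tr ρ̄(Frob_ℓ) = a_ℓ(W)`** at every good prime `ℓ ≠ p`. -/
theorem trace_rhoM_frob (b : Module.Basis (Fin 2) (ZMod p) (Tp W p)) {ℓ : ℕ} (hℓ : ℓ.Prime)
    (hℓp : ℓ ≠ p) (hgood : W.IsGoodPrimeFor ℓ)
    (A : ValuationSubring Qb) (hA : A.LiesOverPrime ℓ) (τ : GQ) (hτ : A.IsFrobeniusAt τ ℓ) :
    (rhoM b τ).trace = ((W.apOfModel ℓ : ℤ) : ZMod p) := by
  have hd := det_rhoM hΔ hcard hirr b τ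
  have hrel := rhoM_frob_rel b hℓ hℓp hgood A hA τ hτ
  rw [← cyc_frob hℓ hℓp hA hτ, ← hd] at hrel
  refine trace_eq_of_quadratic ?_ hrel
  rw [hd]
  exact Units.ne_zero _

end DetTrace


/-! ### Complex conjugation and absolute irreducibility -/

theorem cyc_conj : ((cyc p complexConjugation : (ZMod p)ˣ) : ZMod p) = -1 := by
  have hp : p.Prime := Fact.out
  obtain ⟨ζ, hζ⟩ := exists_primitiveRoot p
  have h1 : ((cyc p complexConjugation : (ZMod p)ˣ) : ZMod p) = ((p - 1 : ℕ) : ZMod p) := by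
    rw [cyc_eq_natCast_iff hζ]
    rw [Fermat.Agent.GP.Loc.Arch.conj_rootOfUnity p hp.ne_zero ζ hζ.pow_eq_one]
    have hζ0 : ζ ≠ 0 := hζ.ne_zero hp.ne_zero
    apply mul_right_cancel₀ hζ0
    rw [inv_mul_cancel₀ hζ0, ← pow_succ, Nat.sub_add_cancel hp.one_le, hζ.pow_eq_one]
  rw [h1, Nat.cast_sub hp.one_le, ZMod.natCast_self, zero_sub, Nat.cast_one]

section Span

variable (hΔ : W.Δ ≠ 0) (hcard : Nat.card (Tp W p) = p ^ 2) (hirr : W.ModRepIsIrreducible p)
include hΔ hcard hirr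

/-- an eigenbasis of complex conjugation on `W[p]`, eigenvalues `1, −1` (`p` odd) -/
theorem exists_basis_conj (hp2 : p ≠ 2) :
    ∃ b : Module.Basis (Fin 2) (ZMod p) (Tp W p),
      rho W p complexConjugation (b 0) = b 0 ∧ rho W p complexConjugation (b 1) = - b 1 := by
  have h2 : (2 : ZMod p) ≠ 0 := by
    intro h
    have : ((2 : ℕ) : ZMod p) = 0 := by exact_mod_cast h
    rw [ZMod.natCast_eq_zero_iff] at this
    exact hp2 ((Nat.prime_dvd_prime_iff_eq (Fact.out : p.Prime) Nat.prime_two).1 this)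
  refine Fermat.Agent.GP.Loc.Arch.exists_basis_of_involution h2 (finrank_Tp hcard) _ ?_ ?_
  · rw [← map_mul, complexConjugation_mul_self, map_one]
  · rw [det_rho hΔ hcard hirr, cyc_conj]

omit hΔ in
/-- **Absolute irreducibility** (oddness): in an eigenbasis of complex conjugation the image of
`ρ̄` spans `M₂(𝔽_p)`. -/
theorem span_rhoM_eq_top (hp2 : p ≠ 2) (b : Module.Basis (Fin 2) (ZMod p) (Tp W p))
    (h0 : rho W p complexConjugation (b 0) = b 0)
    (h1 : rho W p complexConjugation (b 1) = - b 1) :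
    Submodule.span (ZMod p) (Set.range (rhoM b)) = ⊤ := by
  have h2 : (2 : ZMod p) ≠ 0 := by
    intro h
    have : ((2 : ℕ) : ZMod p) = 0 := by exact_mod_cast h
    rw [ZMod.natCast_eq_zero_iff] at this
    exact hp2 ((Nat.prime_dvd_prime_iff_eq (Fact.out : p.Prime) Nat.prime_two).1 this)
  -- coordinates of a vector outside a coordinate line
  have h21 : ∃ g : GQ, rhoM b g 1 0 ≠ 0 := by
    obtain ⟨g, hg⟩ := exists_not_mem_span hcard hirr (b.ne_zero 0)
    refine ⟨g, fun h => hg ?_⟩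
    have hsum := b.sum_repr (rho W p g (b 0))
    rw [Fin.sum_univ_two] at hsum
    have hz : b.repr (rho W p g (b 0)) 1 = 0 := by
      rw [rhoM_apply, LinearMap.toMatrixAlgEquiv_apply] at h
      exact h
    rw [hz, zero_smul, add_zero] at hsum
    rw [← hsum]
    exact Submodule.smul_mem _ _ (Submodule.mem_span_singleton_self _)
  have h12 : ∃ g : GQ, rhoM b g 0 1 ≠ 0 := by
    obtain ⟨g, hg⟩ := exists_not_mem_span hcard hirr (b.ne_zero 1)
    refine ⟨g, fun h => hg ?_⟩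
    have hsum := b.sum_repr (rho W p g (b 1))
    rw [Fin.sum_univ_two] at hsum
    have hz : b.repr (rho W p g (b 1)) 0 = 0 := by
      rw [rhoM_apply, LinearMap.toMatrixAlgEquiv_apply] at h
      exact h
    rw [hz, zero_smul, zero_add] at hsum
    rw [← hsum]
    exact Submodule.smul_mem _ _ (Submodule.mem_span_singleton_self _)
  refine span_eq_top_of_diag (rhoM b) h2 (c := complexConjugation) ?_ h21 h12
  ext i j
  rw [rhoM_apply, LinearMap.toMatrixAlgEquiv_apply]
  fin_cases i <;> fin_cases j <;> simp [h0, h1, Matrix.single]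

end Span

end Fermat.Agent.GB.A.A6.ECDet
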