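/-
GATE-B / CASE A, node A6, leaf (E2) (helper35): the `ρ̄`-eigenspace `Q` of `Kum_p(F_N)`.

`eigQ N m S hNS a = ⋂_{ℓ ∉ S} ker (T_ℓ − a ℓ) ⊆ Kum_m(F_N)`.

* `gal_mem_eigQ`, `end_mem_eigQ` : `Q` is stable under Galois and under every endomorphism
  commuting with Galois (Eichler–Shimura trick), e.g. `W_q`, `U_q`;
* `eigQ_frob` : Eichler–Shimura on `Q` : `τ + ℓ τ⁻¹ = a ℓ` for a Frobenius lift at `ℓ ∉ S`;
* `finiteLevel_gal` : the Galois action on `Kum_p(F_N)` factors through a finite level;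
* `eigQ_rel` : (Chebotarev) for the eigensystem `a ℓ = a_ℓ(W)` of an elliptic curve with `W[p]`
  irreducible : `g + χ_p(g) g⁻¹ = tr ρ̄_{W,p}(g)` on `Q`, for EVERY `g ∈ G_ℚ` — the `hrel` binder of
  `GB/A/A6/Abs.caseA_abs_A1`.
-/
import Mathlib
import Fermat.Agent.GB.A.A6.ECDet
import Fermat.Agent.GK.New.KillerDies
import Fermat.Agent.GJ.J2.EigFinal
import Fermat.Agent.GJ.FiniteLevel

set_option autoImplicit false
set_option linter.unusedSectionVars false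
set_option linter.style.haveILetI false

noncomputable section

namespace Fermat.Agent.GB.A.A6.EigQ

open AlgebraicCurve
open Fermat.Agent.GJ Fermat.Agent.GJ.KumGroup Fermat.Agent.GJ.Kum.KumType
open Fermat.Agent.GK.UQ Fermat.Agent.GK.New
open Fermat.Agent.GJ.CycChar Fermat.Agent.GB.A.A6.ECDet Fermat.Agent.GE.ECAssembly

local notation "GQ'" => (AlgebraicClosure ℚ ≃ₐ[ℚ] AlgebraicClosure ℚ)

section Def

variable (N : ℕ) [NeZero N] (m : ℕ) [NeZero m] (S : Finset ℕ)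
  (hNS : ∀ q : ℕ, q.Prime → q ∣ N → q ∈ S) (a : ℕ → ℤ)

/-- **the eigenspace** `Q = ⋂_{ℓ ∉ S} ker (T_ℓ − a ℓ)` of `Kum_m(F_N)`. -/
def eigQ : Submodule (ZMod m) (Additive (Kum Kb (FK N) m)) :=
  ⨅ i : PrimeIdx S, LinearMap.ker
    (kumTl N m i.2.1 (PrimeIdx.not_dvd hNS i) - ((a i.1 : ℤ) : ZMod m) •
      (1 : Module.End (ZMod m) (Additive (Kum Kb (FK N) m))))

/-- `T_ℓ` commutes with Galois (pointwise form, for `kumTl`). -/
theorem kumTl_gal {ℓ : ℕ} (hℓ : ℓ.Prime) (hℓN : ¬ ℓ ∣ N) (σ : GQ')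
    (x : Additive (Kum Kb (FK N) m)) :
    kumTl N m hℓ hℓN (gal N m σ x) = gal N m σ (kumTl N m hℓ hℓN x) := by
  haveI : NeZero ℓ := ⟨hℓ.ne_zero⟩
  exact LinearMap.congr_fun (TEnd_comm_gal
    (Fermat.Agent.GJ.Kum.KumGate.hnMemHyp N hℓ hℓN)
    (Fermat.Agent.GJ.Kum.KumGate.hnDivHyp N m hℓ hℓN) σ) x

theorem gal_mul_apply (σ τ : GQ') (x : Additive (Kum Kb (FK N) m)) :
    gal N m (σ * τ) x = gal N m σ (gal N m τ x) := by
  rw [(gal N m).map_mul]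
  rfl

theorem gal_inv_gal (σ : GQ') (x : Additive (Kum Kb (FK N) m)) :
    gal N m σ⁻¹ (gal N m σ x) = x := by
  rw [← gal_mul_apply, inv_mul_cancel, (gal N m).map_one]
  rfl

theorem gal_gal_inv (σ : GQ') (x : Additive (Kum Kb (FK N) m)) :
    gal N m σ (gal N m σ⁻¹ x) = x := by
  rw [← gal_mul_apply, mul_inv_cancel, (gal N m).map_one]
  rfl

variable {N m S hNS a}

theorem mem_eigQ {x : Additive (Kum Kb (FK N) m)} :
    x ∈ eigQ N m S hNS a ↔ ∀ i : PrimeIdx S,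
      kumTl N m i.2.1 (PrimeIdx.not_dvd hNS i) x = ((a i.1 : ℤ) : ZMod m) • x := by
  unfold eigQ
  rw [Submodule.mem_iInf]
  refine forall_congr' fun i => ?_
  rw [LinearMap.mem_ker, LinearMap.sub_apply, LinearMap.smul_apply, Module.End.one_apply,
    sub_eq_zero]

theorem kumTl_eq_of_mem {x : Additive (Kum Kb (FK N) m)} (hx : x ∈ eigQ N m S hNS a)
    {ℓ : ℕ} (hℓ : ℓ.Prime) (hℓS : ℓ ∉ S) (hℓN : ¬ ℓ ∣ N) :
    kumTl N m hℓ hℓN x = ((a ℓ : ℤ) : ZMod m) • x :=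
  mem_eigQ.1 hx ⟨ℓ, hℓ, hℓS⟩

/-- `Q` is Galois-stable. -/
theorem gal_mem_eigQ (σ : GQ') {x : Additive (Kum Kb (FK N) m)} (hx : x ∈ eigQ N m S hNS a) :
    gal N m σ x ∈ eigQ N m S hNS a := by
  rw [mem_eigQ] at hx ⊢
  intro i
  rw [kumTl_gal, hx i, map_smul]

/-- `Q` is stable under every endomorphism commuting with Galois (Eichler–Shimura trick). -/
theorem end_mem_eigQ (hmS : ∀ q : ℕ, q.Prime → q ∣ m → q ∈ S)
    (E : Module.End (ZMod m) (Additive (Kum Kb (FK N) m)))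
    (hE : ∀ (σ : GQ') x, E (gal N m σ x) = gal N m σ (E x))
    {x : Additive (Kum Kb (FK N) m)} (hx : x ∈ eigQ N m S hNS a) :
    E x ∈ eigQ N m S hNS a := by
  have hm : 0 < m := Nat.pos_of_ne_zero (NeZero.ne m)
  rw [mem_eigQ] at hx ⊢
  intro i
  have hnd : ¬ i.1 ∣ N * m := by
    intro h
    rcases (Nat.Prime.dvd_mul i.2.1).mp h with h | h
    · exact i.2.2 (hNS _ i.2.1 h)
    · exact i.2.2 (hmS _ i.2.1 h)
  have h := TEnd_comp_of_gal_comm N N m hm i.2.1 hnd hnd E hE x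
  rw [← h, hx i, map_smul]

/-- **Eichler–Shimura on `Q`**: `τ + ℓ τ⁻¹ = a ℓ` for every Frobenius lift `τ` at `ℓ ∉ S`. -/
theorem eigQ_frob (hmS : ∀ q : ℕ, q.Prime → q ∣ m → q ∈ S)
    {ℓ : ℕ} (hℓ : ℓ.Prime) (hℓS : ℓ ∉ S)
    (A : ValuationSubring Kb) (hA : A.LiesOverPrime ℓ) (τ : GQ') (hτ : A.IsFrobeniusAt τ ℓ)
    {x : Additive (Kum Kb (FK N) m)} (hx : x ∈ eigQ N m S hNS a) :
    gal N m τ x + (ℓ : ZMod m) • gal N m τ⁻¹ x = ((a ℓ : ℤ) : ZMod m) • x := by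
  have hm : 0 < m := Nat.pos_of_ne_zero (NeZero.ne m)
  have hnd : ¬ ℓ ∣ N * m := by
    intro h
    rcases (Nat.Prime.dvd_mul hℓ).mp h with h | h
    · exact hℓS (hNS _ hℓ h)
    · exact hℓS (hmS _ hℓ h)
  have hy : gal N m τ⁻¹ x ∈ eigQ N m S hNS a := gal_mem_eigQ τ⁻¹ hx
  have hττ : gal N m τ (gal N m τ⁻¹ x) = x := gal_gal_inv N m τ x
  have h := LinearMap.congr_fun (gal_frob_kum N m hm hℓ hnd A hA τ hτ) (gal N m τ⁻¹ x)
  rw [LinearMap.add_apply, LinearMap.sub_apply, Module.End.mul_apply, Module.End.mul_apply,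
    LinearMap.smul_apply, Module.End.one_apply, LinearMap.zero_apply, hττ,
    kumTl_eq_of_mem hx hℓ hℓS] at h
  rw [← sub_eq_zero, ← h]
  abel

end Def

/-! ### Finite level and Chebotarev -/

section Rel

variable {N : ℕ} [NeZero N] {p : ℕ} [Fact p.Prime]

instance instNeZeroP : NeZero p := ⟨(Fact.out : p.Prime).ne_zero⟩

/-- `Kum_p(F_N)` is finite. -/
theorem finite_kum : Finite (Additive (Kum Kb (FK N) p)) :=
  (Fermat.Agent.GJ.EigAsm.fin N p : Finite (Kum Kb (FK N) p))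

variable (N p) in
/-- The Galois action on `Kum_p(F_N)` factors through a finite level. -/
theorem finiteLevel_gal : GaloisFactorsThroughFiniteLevel (gal N p) := by
  have := finite_kum (N := N) (p := p)
  have : Module.Finite (ZMod p) (Additive (Kum Kb (FK N) p)) := Module.Finite.of_finite
  exact Fermat.Agent.GJ.FiniteLevel.factorsThroughFiniteLevel_of_pointwise (gal N p)
    (gal_level N p)

variable {W : WeierstrassCurve ℤ} (hΔ : W.Δ ≠ 0) (hcard : Nat.card (Tp W p) = p ^ 2)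
include hΔ hcard

/-- **Chebotarev, jointly for `W[p]`, `μ_p` and `Kum_p(F_N)`**: every `g` is jointly conjugate to
a Frobenius lift at a good prime outside any finite set. -/
theorem exists_frob_conj3 (g : GQ') (B : Finset ℕ) :
    ∃ (ℓ : ℕ) (A : ValuationSubring Kb) (τ h : GQ'), ℓ.Prime ∧ ℓ ∉ B ∧ ℓ ≠ p ∧
      W.IsGoodPrimeFor ℓ ∧ A.LiesOverPrime ℓ ∧ A.IsFrobeniusAt τ ℓ ∧
      rho W p τ = rho W p (h * g * h⁻¹) ∧ cyc p τ = cyc p g ∧
      gal N p τ = gal N p (h * g * h⁻¹) := by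
  classical
  have hR := Fermat.Agent.GP.TW.ChebExist.factorsThroughFiniteLevel_prod
    ((rho W p).prod (cyc p)) (gal N p)
    (Fermat.Agent.GP.TW.ChebExist.factorsThroughFiniteLevel_prod (rho W p) (cyc p)
      (finiteLevel_rho hcard) (cyc_finiteLevel p)) (finiteLevel_gal N p)
  obtain ⟨ℓ, hℓ, hℓB, hall⟩ := Fermat.Agent.GP.TW.ChebExist.exists_prime_forall_frob
    (((rho W p).prod (cyc p)).prod (gal N p)) hR g (B ∪ insert p W.Δ.natAbs.primeFactors)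
  rw [Finset.mem_union, not_or] at hℓB
  obtain ⟨hℓp, hgood⟩ := good_of_not_mem W hΔ hℓ hℓB.2
  obtain ⟨A, τ, hA, hτ⟩ := Fermat.Agent.Common_helper32.exists_isFrobeniusAt ℓ hℓ
  obtain ⟨h, hh⟩ := hall A τ hA hτ
  rw [MonoidHom.prod_apply, MonoidHom.prod_apply, MonoidHom.prod_apply, MonoidHom.prod_apply,
    Prod.mk.injEq, Prod.mk.injEq] at hh
  refine ⟨ℓ, A, τ, h, hℓ, hℓB.1, hℓp, hgood, hA, hτ, hh.1.1, ?_, hh.2⟩
  rw [hh.1.2, map_mul, map_mul, map_inv, mul_comm, ← mul_assoc, inv_mul_cancel, one_mul]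

variable (hirr : W.ModRepIsIrreducible p)
include hirr

/-- **(E2) the relation on `Q`** : `g + χ_p(g) g⁻¹ = tr ρ̄_{W,p}(g)` on the `a_ℓ(W)`-eigenspace of
`Kum_p(F_N)`, for every `g ∈ G_ℚ`. -/
theorem eigQ_rel (S : Finset ℕ) (hNS : ∀ q : ℕ, q.Prime → q ∣ N → q ∈ S) (hpS : p ∈ S)
    (a : ℕ → ℤ) (ha : ∀ ℓ : ℕ, ℓ.Prime → ℓ ∉ S → W.IsGoodPrimeFor ℓ → a ℓ = W.apOfModel ℓ)
    (b : Module.Basis (Fin 2) (ZMod p) (Tp W p)) (g : GQ')
    {x : Additive (Kum Kb (FK N) p)} (hx : x ∈ eigQ N p S hNS a) :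
    gal N p g x + ((cyc p g : (ZMod p)ˣ) : ZMod p) • gal N p g⁻¹ x
      = Matrix.trace (rhoM b g) • x := by
  have hmS : ∀ q : ℕ, q.Prime → q ∣ p → q ∈ S := fun q hq hqp =>
    ((Nat.prime_dvd_prime_iff_eq hq (Fact.out : p.Prime)).1 hqp) ▸ hpS
  obtain ⟨ℓ, A, τ, h, hℓ, hℓS, hℓp, hgood, hA, hτ, hρ, hχ, hgal⟩ :=
    exists_frob_conj3 (N := N) hΔ hcard g S
  have hy : gal N p h x ∈ eigQ N p S hNS a := gal_mem_eigQ h hx
  have key := eigQ_frob hmS hℓ hℓS A hA τ hτ hy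
  have htr : Matrix.trace (rhoM b g) = ((a ℓ : ℤ) : ZMod p) := by
    rw [ha ℓ hℓ hℓS hgood, ← trace_rhoM_frob hΔ hcard hirr b hℓ hℓp hgood A hA τ hτ,
      rhoM_apply, rhoM_apply, hρ, ← rhoM_apply, ← rhoM_apply, map_mul, map_mul,
      Matrix.trace_mul_comm, ← mul_assoc, ← map_mul, inv_mul_cancel, map_one, one_mul]
  have hτinv : ∀ z, gal N p τ⁻¹ z = gal N p (h * g⁻¹ * h⁻¹) z := fun z => by
    have e : z = gal N p (h * g * h⁻¹) (gal N p (h * g⁻¹ * h⁻¹) z) := by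
      rw [← gal_mul_apply]
      have : h * g * h⁻¹ * (h * g⁻¹ * h⁻¹) = 1 := by group
      rw [this, (gal N p).map_one]
      rfl
    conv_lhs => rw [e, ← hgal, gal_inv_gal]
  rw [hgal, hτinv, ← cyc_frob hℓ hℓp hA hτ, hχ, gal_mul_apply, gal_mul_apply, gal_mul_apply,
    gal_mul_apply, gal_inv_gal] at key
  have key2 := congrArg (gal N p h⁻¹) key
  rw [map_add, map_smul, map_smul, gal_inv_gal, gal_inv_gal, gal_inv_gal] at key2
  rw [htr]
  exact key2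

end Rel

end Fermat.Agent.GB.A.A6.EigQ
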