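/-
GATE-B / CASE A, node A6, leaf (E4) (helper35): THE KILLER.

`N'` a level, `S` a finite set of primes containing the primes of `N'`, `a : ℕ → ℤ` an eigensystem,
`p` a prime.  If NO normalised eigenform of level `N'` is congruent to `a` at the primes outside `S`
modulo a maximal ideal over `p`, then there is an integer polynomial `P` in the `T_ℓ`, `ℓ ∉ S`, with

* `P (T^{N'}) = 0` in `heckeAlgebra N' 2 S`, and
* `P ≡ 1` modulo `(p, X_ℓ − a ℓ)`, so that `P (T^M)` is the IDENTITY on the eigenspace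
  `eigQ M p S a ⊆ Kum_p(F_M)` at EVERY level `M` (with `S ⊇` primes of `M`).

Route: `GM/End/LyingOver.exists_eigenform_of_comap_annSet_le` (lattice-to-eigenform lifting from the
small Hecke ring `ℤ[X_ℓ : ℓ ∉ S]`) + `heckeEvalForms_eq_zero_of_evLat_eq_zero` (Eichler–Shimura
faithfulness of the lattice).
-/
import Mathlib
import Fermat.Agent.GB.A.A6.EigQ
import Fermat.Agent.GM.End.LyingOver

set_option autoImplicit false
set_option linter.unusedSectionVars false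
set_option linter.style.haveILetI false

noncomputable section

namespace Fermat.Agent.GB.A.A6.Killer

open AlgebraicCurve ModularCurve
open CuspForm ModularFormClass CongruenceSubgroup
open Fermat.Agent.GJ Fermat.Agent.GJ.KumGroup Fermat.Agent.GJ.Kum.KumType
open Fermat.Agent.GK.UQ Fermat.Agent.GK.New Fermat.Agent.GK.Tate.KumHecke
open Fermat.Agent.GM.End Fermat.Agent.GJ.J2.Lat
open Fermat.Agent.GB.A.A6.EigQ

/-! ### The small Hecke ring `ℤ[X_ℓ : ℓ ∉ S]` inside the free Hecke ring -/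

section Psi

variable (S : Finset ℕ)

/-- the index embedding `PrimeIdx S → Nat.Primes` -/
abbrev idxPrime (i : PrimeIdx S) : Nat.Primes := ⟨i.1, i.2.1⟩

/-- `ψ : ℤ[X_ℓ : ℓ ∉ S] → ℤ[X_ℓ : ℓ prime]` -/
def psi : MvPolynomial (PrimeIdx S) ℤ →+* HeckeAlg :=
  (MvPolynomial.rename (idxPrime S) : MvPolynomial (PrimeIdx S) ℤ →ₐ[ℤ] HeckeAlg).toRingHom

theorem psi_X (i : PrimeIdx S) : psi S (MvPolynomial.X i) = heckeGen (idxPrime S i) :=
  MvPolynomial.rename_X _ _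

theorem psi_C (n : ℤ) : psi S (MvPolynomial.C n) = MvPolynomial.C n :=
  MvPolynomial.rename_C _ _

variable {N' : ℕ} [NeZero N'] {S} (hN'S : ∀ q : ℕ, q.Prime → q ∣ N' → q ∈ S)

/-- `P(T^{N'})` in `heckeAlgebra N' 2 S` and in the free Hecke ring agree as endomorphisms. -/
theorem coe_aeval_TfamH (P : MvPolynomial (PrimeIdx S) ℤ) :
    ((MvPolynomial.aeval (TfamH hN'S) P : heckeAlgebra N' 2 (↑S : Set ℕ)) :
        Module.End ℂ (CuspForm (Gamma0 N') 2))
      = ((heckeEvalForms N' 2 (psi S P) : heckeAlgebra N' 2 ∅) :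
          Module.End ℂ (CuspForm (Gamma0 N') 2)) := by
  have h : ((heckeAlgebra N' 2 (↑S : Set ℕ)).val.comp (MvPolynomial.aeval (TfamH hN'S)))
      = ((heckeAlgebra N' 2 ∅).val.comp (MvPolynomial.aeval (heckeFormsGen N' 2))).comp
          (MvPolynomial.rename (idxPrime S)) := by
    apply MvPolynomial.algHom_ext
    intro i
    simp only [AlgHom.comp_apply, MvPolynomial.rename_X, MvPolynomial.aeval_X,
      Subalgebra.val_apply]
    rw [coe_TfamH, heckeFormsGen_of_not_dvd (N := N') (k := 2) (ℓ := idxPrime S i)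
      (PrimeIdx.not_dvd hN'S i)]
    exact (heckeAlgebra.coe_T (N := N') (k := 2) i.2.1 (PrimeIdx.not_dvd hN'S i)
      (Set.notMem_empty _)).symm
  exact DFunLike.congr_fun h P

/-- **Faithfulness of the lattice**: `P` kills `Λ_{N'}` ⟹ `P(T^{N'}) = 0` in
`heckeAlgebra N' 2 S`. -/
theorem aeval_TfamH_eq_zero_of_actL (P : MvPolynomial (PrimeIdx S) ℤ)
    (hP : ∀ x : Lam N', actL N' (psi S P) x = 0) :
    MvPolynomial.aeval (TfamH hN'S) P = 0 := by
  have h0 : evLat N' (psi S P) = 0 := by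
    apply Subtype.ext
    refine LinearMap.ext fun x => ?_
    exact hP x
  have h1 : heckeEvalForms N' 2 (psi S P) = 0 :=
    heckeEvalForms_eq_zero_of_evLat_eq_zero N' _ h0
  apply Subtype.ext
  have h2 := coe_aeval_TfamH hN'S P
  rw [h1, ZeroMemClass.coe_zero] at h2
  rw [h2, ZeroMemClass.coe_zero]

end Psi

/-! ### The ideal `(p, X_ℓ − a ℓ)` and its action on `eigQ` -/

section NIdeal

variable (S : Finset ℕ) (p : ℕ) (a : ℕ → ℤ)

/-- the ideal `(p, X_ℓ − a ℓ : ℓ ∉ S)` of the small Hecke ring -/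
def nIdeal : Ideal (MvPolynomial (PrimeIdx S) ℤ) :=
  Ideal.span (insert (MvPolynomial.C (p : ℤ))
    (Set.range fun i : PrimeIdx S => MvPolynomial.X i - MvPolynomial.C (a i.1)))

variable {S p a}

variable {M : ℕ} [NeZero M] [Fact p.Prime] {ζ : ℂ}

set_option synthInstance.maxHeartbeats 400000 in
/-- every element of `(p, X_ℓ − a ℓ)` kills the eigenspace `eigQ M p S a`. -/
theorem kumHecke_aeval_eq_zero_of_mem_nIdeal (hζ : IsPrimitiveRoot ζ p)
    (hMS : ∀ q : ℕ, q.Prime → q ∣ M → q ∈ S)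
    {P₀ : MvPolynomial (PrimeIdx S) ℤ} (hP₀ : P₀ ∈ nIdeal S p a)
    {x : Additive (Kum Kb (FK M) p)} (hx : x ∈ eigQ M p S hMS a) :
    kumHecke M (↑S : Set ℕ) p hζ (MvPolynomial.aeval (TfamH hMS) P₀) x = 0 := by
  unfold nIdeal at hP₀
  set K := kumHecke M (↑S : Set ℕ) p hζ with hK
  set ev : MvPolynomial (PrimeIdx S) ℤ →ₐ[ℤ] heckeAlgebra M 2 (↑S : Set ℕ) :=
    MvPolynomial.aeval (TfamH hMS) with hev
  have hC : ∀ n : ℤ, K (ev (MvPolynomial.C n)) = (n : Module.End (ZMod p) _) := fun n => by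
    have e1 : ev (MvPolynomial.C n) = ((n : ℤ) : heckeAlgebra M 2 (↑S : Set ℕ)) := by
      rw [hev, MvPolynomial.aeval_C, eq_intCast]
    rw [e1]
    exact map_intCast K n
  induction hP₀ using Submodule.span_induction with
  | mem y hy =>
    rcases hy with rfl | ⟨i, rfl⟩
    · rw [hC, Module.End.intCast_apply, natCast_zsmul,
        ← Nat.cast_smul_eq_nsmul (ZMod p), ZMod.natCast_self, zero_smul]
    · have e2 : ev (MvPolynomial.X i - MvPolynomial.C (a i.1))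
          = ev (MvPolynomial.X i) - ev (MvPolynomial.C (a i.1)) := ev.map_sub _ _
      have e3 : ev (MvPolynomial.X i) = TfamH hMS i := by
        rw [hev, MvPolynomial.aeval_X]
      rw [e2, K.map_sub, hC, e3, LinearMap.sub_apply, hK, kumHecke_TfamH S p hζ hMS i,
        mem_eigQ.1 hx i, Module.End.intCast_apply, ← Int.cast_smul_eq_zsmul (ZMod p), sub_self]
  | zero =>
    have : ev 0 = 0 := ev.map_zero
    rw [this, K.map_zero, LinearMap.zero_apply]
  | add y z _ _ hy hz =>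
    have : ev (y + z) = ev y + ev z := ev.map_add _ _
    rw [this, K.map_add, LinearMap.add_apply, hy, hz, add_zero]
  | smul r y _ hy =>
    have : ev (r • y) = ev r * ev y := by rw [smul_eq_mul]; exact ev.map_mul _ _
    rw [this, K.map_mul, Module.End.mul_apply, hy, map_zero]

end NIdeal

/-! ### The killer -/

section Main

variable {N' : ℕ} [NeZero N'] {S : Finset ℕ} (hN'S : ∀ q : ℕ, q.Prime → q ∣ N' → q ∈ S)

/-- **The killer polynomial.** If no normalised eigenform of level `N'` is congruent to the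
eigensystem `a` at the primes outside `S` modulo a maximal ideal over `p`, then `1 = P + P₀` in
`ℤ[X_ℓ : ℓ ∉ S]` with `P(T^{N'}) = 0` and `P₀ ∈ (p, X_ℓ − a ℓ)`. -/
theorem exists_killer_poly (p : ℕ) (a : ℕ → ℤ)
    (hno : ¬ ∃ (g : CuspForm (Gamma0 N') 2) (𝔪' : Ideal (integralClosure ℤ ℂ)),
      g.IsNormalizedEigenform ∧ 𝔪'.IsMaximal ∧ (p : integralClosure ℤ ℂ) ∈ 𝔪' ∧
      ∀ ℓ : ℕ, ℓ.Prime → ℓ ∉ S →
        ∃ c : integralClosure ℤ ℂ, (c : ℂ) = qCoeff g ℓ ∧
          c - ((a ℓ : ℤ) : integralClosure ℤ ℂ) ∈ 𝔪') :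
    ∃ P P₀ : MvPolynomial (PrimeIdx S) ℤ, P₀ ∈ nIdeal S p a ∧ P + P₀ = 1 ∧
      MvPolynomial.aeval (TfamH hN'S) P = 0 := by
  classical
  set J : Ideal (MvPolynomial (PrimeIdx S) ℤ) :=
    (annSet N' (Set.univ : Set (Lam N'))).comap (psi S) with hJ
  by_cases htop : J ⊔ nIdeal S p a = ⊤
  · have h1 : (1 : MvPolynomial (PrimeIdx S) ℤ) ∈ J ⊔ nIdeal S p a := by
      rw [htop]; exact Submodule.mem_top
    obtain ⟨P, hP, P₀, hP₀, hsum⟩ := Submodule.mem_sup.1 h1
    refine ⟨P, P₀, hP₀, hsum, aeval_TfamH_eq_zero_of_actL hN'S P fun x => ?_⟩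
    exact hP x (Set.mem_univ x)
  · exfalso
    obtain ⟨𝔭, h𝔭max, hle⟩ := Ideal.exists_le_maximal _ htop
    haveI : 𝔭.IsPrime := h𝔭max.isPrime
    have hann : (annSet N' (Set.univ : Set (Lam N'))).comap (psi S) ≤ 𝔭 := le_sup_left.trans hle
    have hn : nIdeal S p a ≤ 𝔭 := le_sup_right.trans hle
    obtain ⟨g, θ, 𝔪', hg, h𝔪', hle', hθ, -⟩ :=
      exists_eigenform_of_comap_annSet_le N' (psi S) Set.univ 𝔭 hann
    have hC : ∀ n : ℤ, θ (MvPolynomial.C n) = (n : integralClosure ℤ ℂ) := fun n =>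
      RingHom.congr_fun (RingHom.ext_int (θ.comp MvPolynomial.C)
        (Int.castRingHom (integralClosure ℤ ℂ))) n
    refine hno ⟨g, 𝔪', hg, h𝔪', ?_, ?_⟩
    · have h1 : MvPolynomial.C (p : ℤ) ∈ nIdeal S p a :=
        Ideal.subset_span (Set.mem_insert _ _)
      have h2 := hle' (hn h1)
      rw [Ideal.mem_comap, RingHom.comp_apply, psi_C, hC] at h2
      exact_mod_cast h2
    · intro ℓ hℓ hℓS
      have h1 : MvPolynomial.X (⟨ℓ, hℓ, hℓS⟩ : PrimeIdx S) - MvPolynomial.C (a ℓ)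
          ∈ nIdeal S p a :=
        Ideal.subset_span (Set.mem_insert_of_mem _ ⟨⟨ℓ, hℓ, hℓS⟩, rfl⟩)
      have h2 := hle' (hn h1)
      rw [Ideal.mem_comap, RingHom.comp_apply, map_sub, psi_X, psi_C, map_sub, hC] at h2
      exact ⟨θ (heckeGen ⟨ℓ, hℓ⟩), hθ ⟨ℓ, hℓ⟩, h2⟩

set_option synthInstance.maxHeartbeats 400000 in
/-- **The killer on `Kum_p`.** Same hypothesis; at every level `M` (with `S ⊇` primes of `M`)
`t := P(T^M)` is the identity on `eigQ M p S a`, while `P(T^{N'}) = 0`. -/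
theorem exists_killer (p : ℕ) [Fact p.Prime] (a : ℕ → ℤ)
    (hno : ¬ ∃ (g : CuspForm (Gamma0 N') 2) (𝔪' : Ideal (integralClosure ℤ ℂ)),
      g.IsNormalizedEigenform ∧ 𝔪'.IsMaximal ∧ (p : integralClosure ℤ ℂ) ∈ 𝔪' ∧
      ∀ ℓ : ℕ, ℓ.Prime → ℓ ∉ S →
        ∃ c : integralClosure ℤ ℂ, (c : ℂ) = qCoeff g ℓ ∧
          c - ((a ℓ : ℤ) : integralClosure ℤ ℂ) ∈ 𝔪') :
    ∃ P : MvPolynomial (PrimeIdx S) ℤ, MvPolynomial.aeval (TfamH hN'S) P = 0 ∧
      ∀ (M : ℕ) [NeZero M] (hMS : ∀ q : ℕ, q.Prime → q ∣ M → q ∈ S) (ζ : ℂ)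
        (hζ : IsPrimitiveRoot ζ p) (x : Additive (Kum Kb (FK M) p)),
        x ∈ eigQ M p S hMS a →
          kumHecke M (↑S : Set ℕ) p hζ (MvPolynomial.aeval (TfamH hMS) P) x = x := by
  obtain ⟨P, P₀, hP₀, hsum, hP⟩ := exists_killer_poly hN'S p a hno
  refine ⟨P, hP, fun M _ hMS ζ hζ x hx => ?_⟩
  have h0 := kumHecke_aeval_eq_zero_of_mem_nIdeal hζ hMS hP₀ hx
  have h1 : P = 1 - P₀ := eq_sub_of_add_eq hsum
  set K := kumHecke M (↑S : Set ℕ) p hζ with hK
  set ev : MvPolynomial (PrimeIdx S) ℤ →ₐ[ℤ] heckeAlgebra M 2 (↑S : Set ℕ) :=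
    MvPolynomial.aeval (TfamH hMS) with hev
  have h2 : ev P = 1 - ev P₀ := by rw [h1, map_sub, map_one]
  rw [h2, K.map_sub, K.map_one, LinearMap.sub_apply, h0, sub_zero, Module.End.one_apply]

end Main

end Fermat.Agent.GB.A.A6.Killer
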