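/-
GATE-B / CASE A, node A6, leaf (E5) (helper35): **CASE A (Mazur's principle) in the S38 shape**,
`GB.Top.S43Frey.CaseA38`, from THREE binders:

* `CongrAll`   : residual congruences outside a finite set of primes hold at all good primes
                 (Chebotarev; helper79);
* `SupplyStmt` : the `a_ℓ(W)`-eigenspace of `Kum_p(F_M)` is nonzero when `W` is residually modular
                 of level `M` (helper84, `GB/A/A6/Supply.lean`);
* `ToricStmt`  : the eigenspace lies in the toric part `ker r₁ ⊓ ker r₂` at every place over `q`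
                 as soon as the killer exists (= `GB/A/FP.le_toric`, helper28, with A3, A4, A5 and
                 `GB/A/A6/Inertia.lean`).

Everything else is on main: `Abs.caseA_abs_A1` (abstract Mazur principle), `ECDet` (det, trace,
absolute irreducibility of `W[p]`), `EigQ` (the relation on the eigenspace), `Killer`,
`GB/A1/FrobWAll.frobW_all` (helper25), `GK/UTr/TRInst` (trace relation), `GK/New/KillerDies`.
-/
import Mathlib
import Fermat.Agent.GB.A.A6.Abs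
import Fermat.Agent.GB.A.A6.Killer
import Fermat.Agent.GB.A1.FrobWAll
import Fermat.Agent.GB.Top.S43Frey
import Fermat.Agent.GK.UTr.TRInst

set_option autoImplicit false
set_option linter.unusedSectionVars false
set_option linter.style.haveILetI false

noncomputable section

namespace Fermat.Agent.GB.A.A6.CaseA

open AlgebraicCurve ModularCurve
open CuspForm ModularFormClass CongruenceSubgroup
open Fermat.Agent.GJ Fermat.Agent.GJ.KumGroup Fermat.Agent.GJ.Kum.KumType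
open Fermat.Agent.GK.UQ Fermat.Agent.GK.New Fermat.Agent.GK.Tate.KumHecke
open Fermat.Agent.GK.UqKronecker Fermat.Agent.GK.AL Fermat.Agent.GK.UTr
open Fermat.Agent.GJ.CycChar
open Fermat.Agent.GB.A.A6.ECDet Fermat.Agent.GB.A.A6.EigQ Fermat.Agent.GB.A.A6.Killer

local notation "GQ'" => (AlgebraicClosure ℚ ≃ₐ[ℚ] AlgebraicClosure ℚ)

/-! ### The three binders -/

/-- **Congruences outside a finite set ⟹ congruences at all good primes** (Chebotarev). -/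
def CongrAll : Prop :=
  ∀ (W : WeierstrassCurve ℤ) (_ : W.Δ ≠ 0) (p N : ℕ) (_ : p.Prime)
    (f : CuspForm (Gamma0 N) 2) (𝔪 : Ideal (integralClosure ℤ ℂ)),
    f.IsNormalizedEigenform → 𝔪.IsMaximal → (p : integralClosure ℤ ℂ) ∈ 𝔪 →
    ∀ B : Finset ℕ,
    (∀ ℓ : ℕ, ℓ.Prime → ℓ ∉ B → W.IsGoodPrimeFor ℓ → ¬ ℓ ∣ N → ℓ ≠ p →
      ∃ a : integralClosure ℤ ℂ, (a : ℂ) = qCoeff f ℓ ∧
        a - ((W.apOfModel ℓ : ℤ) : integralClosure ℤ ℂ) ∈ 𝔪) →
    ∀ ℓ : ℕ, ℓ.Prime → W.IsGoodPrimeFor ℓ → ¬ ℓ ∣ N → ℓ ≠ p →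
      ∃ a : integralClosure ℤ ℂ, (a : ℂ) = qCoeff f ℓ ∧
        a - ((W.apOfModel ℓ : ℤ) : integralClosure ℤ ℂ) ∈ 𝔪

/-- **Supply**: residually modular of level `M` ⟹ the eigenspace of `Kum_p(F_M)` is nonzero. -/
def SupplyStmt : Prop :=
  ∀ (M : ℕ) [NeZero M] (p : ℕ) [Fact p.Prime] (W : WeierstrassCurve ℤ)
    (_ : W.IsResiduallyModularOfLevel p M) (S : Finset ℕ)
    (hMS : ∀ q : ℕ, q.Prime → q ∣ M → q ∈ S) (_ : p ∈ S)
    (_ : ∀ ℓ : ℕ, ℓ.Prime → (ℓ : ℤ) ∣ W.Δ → ℓ ∈ S),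
    eigQ M p S hMS (fun ℓ => W.apOfModel ℓ) ≠ ⊥

/-- **Toric**: given the killer, the eigenspace lies in `ker r₁ ⊓ ker r₂` at every place over
`q`. -/
def ToricStmt : Prop :=
  ∀ (p : ℕ) [Fact p.Prime] (_ : 5 ≤ p) (W : WeierstrassCurve ℤ) (_ : W.Δ ≠ 0)
    (_ : Nat.card (Tp W p) = p ^ 2) (_ : W.ModRepIsIrreducible p)
    (N' q : ℕ) [NeZero N'] [Fact q.Prime] (h : ExactDvd q (N' * q)) (_ : q ≠ 2) (_ : q ≠ p)
    (_ : ∀ A : ValuationSubring Kb, A.LiesOverPrime q →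
      ∀ σ ∈ A.inertiaSubgroupIn ℚ, rho W p σ = 1)
    (S : Finset ℕ) (hN'S : ∀ r : ℕ, r.Prime → r ∣ N' → r ∈ S)
    (hMS : ∀ r : ℕ, r.Prime → r ∣ N' * q → r ∈ S) (_ : p ∈ S)
    (_ : ∀ ℓ : ℕ, ℓ.Prime → (ℓ : ℤ) ∣ W.Δ → ℓ ∈ S)
    (P : MvPolynomial (PrimeIdx S) ℤ) (_ : MvPolynomial.aeval (TfamH hN'S) P = 0)
    (_ : ∀ (ζ : ℂ) (hζ : IsPrimitiveRoot ζ p) (x : Additive (Kum Kb (FK (N' * q)) p)),
      x ∈ eigQ (N' * q) p S hMS (fun ℓ => W.apOfModel ℓ) →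
        kumHecke (N' * q) (↑S : Set ℕ) p hζ (MvPolynomial.aeval (TfamH hMS) P) x = x)
    (A : ValuationSubring Kb) (_ : A.LiesOverPrime q),
    ∀ y ∈ eigQ (N' * q) p S hMS (fun ℓ => W.apOfModel ℓ),
      y ∈ kerRed (N' * q) A p ⊓ kerRed₂ h A p

/-! ### CASE A -/

/-- **CASE A in the S38 shape** from the three binders. -/
theorem caseA38_of (hcof : CongrAll) (hsup : SupplyStmt) (htoric : ToricStmt) :
    Fermat.Agent.GB.Top.S43Frey.CaseA38 := by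
  intro p _ hp5 W hΔ hW hcard₁ hker hirr M q hq hq2 hqp hqM hMsq hunr hres hnot
  obtain ⟨N', rfl⟩ : ∃ N', M = N' * q := ⟨M / q, (Nat.div_mul_cancel hqM).symm⟩
  rw [Nat.mul_div_cancel _ hq.pos] at hnot
  have hp : p.Prime := Fact.out
  haveI : Fact q.Prime := ⟨hq⟩
  haveI : NeZero q := ⟨(Fact.out : q.Prime).ne_zero⟩
  have hM0 : N' * q ≠ 0 := hMsq.ne_zero
  have hN'0 : N' ≠ 0 := left_ne_zero_of_mul hM0
  haveI : NeZero N' := ⟨hN'0⟩
  have hq2' : ¬ q ^ 2 ∣ N' * q := fun hd => by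
    have h1 := hMsq q (by rw [← sq]; exact hd)
    exact hq.one_lt.ne' (Nat.isUnit_iff.1 h1)
  have h : ExactDvd q (N' * q) := ⟨hq, hqM, hq2'⟩
  have hcard : Nat.card (Tp W p) = p ^ 2 := hcard₁
  have hp2 : p ≠ 2 := by omega
  have h2 : (2 : ZMod p) ≠ 0 := by
    intro h2
    have : ((2 : ℕ) : ZMod p) = 0 := by exact_mod_cast h2
    rw [ZMod.natCast_eq_zero_iff] at this
    exact hp2 ((Nat.prime_dvd_prime_iff_eq hp Nat.prime_two).1 this)
  -- the set `S`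
  have hΔabs : W.Δ.natAbs ≠ 0 := Int.natAbs_ne_zero.2 hΔ
  have hn0 : N' * q * p * W.Δ.natAbs ≠ 0 :=
    mul_ne_zero (mul_ne_zero hM0 hp.ne_zero) hΔabs
  set S : Finset ℕ := (N' * q * p * W.Δ.natAbs).primeFactors with hS
  have hmemS : ∀ r : ℕ, r.Prime → r ∣ N' * q * p * W.Δ.natAbs → r ∈ S := fun r hr hd =>
    Nat.mem_primeFactors.2 ⟨hr, hd, hn0⟩
  have hMS : ∀ r : ℕ, r.Prime → r ∣ N' * q → r ∈ S := fun r hr hd =>
    hmemS r hr (Dvd.dvd.mul_right (Dvd.dvd.mul_right hd p) _)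
  have hN'S : ∀ r : ℕ, r.Prime → r ∣ N' → r ∈ S := fun r hr hd =>
    hMS r hr (Dvd.dvd.mul_right hd q)
  have hpS : p ∈ S := hmemS p hp (Dvd.dvd.mul_right (Dvd.intro_left _ rfl) _)
  have hΔS : ∀ ℓ : ℕ, ℓ.Prime → (ℓ : ℤ) ∣ W.Δ → ℓ ∈ S := fun ℓ hℓ hd =>
    hmemS ℓ hℓ (Dvd.dvd.mul_left (Int.natCast_dvd.1 hd) _)
  have hmS : ∀ r : ℕ, r.Prime → r ∣ p → r ∈ S := fun r hr hrp =>
    ((Nat.prime_dvd_prime_iff_eq hr hp).1 hrp) ▸ hpS
  set a : ℕ → ℤ := fun ℓ => W.apOfModel ℓ with ha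
  -- the eigenspace
  have hQ0 : eigQ (N' * q) p S hMS a ≠ ⊥ := hsup (N' * q) p W hres S hMS hpS hΔS
  -- the killer
  have hno : ¬ ∃ (g : CuspForm (Gamma0 N') 2) (𝔪' : Ideal (integralClosure ℤ ℂ)),
      g.IsNormalizedEigenform ∧ 𝔪'.IsMaximal ∧ (p : integralClosure ℤ ℂ) ∈ 𝔪' ∧
      ∀ ℓ : ℕ, ℓ.Prime → ℓ ∉ S →
        ∃ c : integralClosure ℤ ℂ, (c : ℂ) = qCoeff g ℓ ∧
          c - ((a ℓ : ℤ) : integralClosure ℤ ℂ) ∈ 𝔪' := by
    rintro ⟨g, 𝔪', hg, hmax, hpm, hc⟩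
    exact hnot ⟨g, 𝔪', hg, hmax, hpm,
      hcof W hΔ p N' hp g 𝔪' hg hmax hpm S (fun ℓ hℓ hℓS _ _ _ => hc ℓ hℓ hℓS)⟩
  obtain ⟨P, hP0, hPid⟩ := exists_killer hN'S p a hno
  have hζ : IsPrimitiveRoot (Complex.exp (2 * Real.pi * Complex.I / p)) p :=
    Complex.isPrimitiveRoot_exp p (NeZero.ne p)
  -- basis and absolute irreducibility
  obtain ⟨b, hb0, hb1⟩ := exists_basis_conj hΔ hcard hirr hp2
  have hspan := span_rhoM_eq_top hcard hirr hp2 b hb0 hb1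
  have hunr' : ∀ A : ValuationSubring Kb, A.LiesOverPrime q →
      ∀ σ ∈ A.inertiaSubgroupIn ℚ, rho W p σ = 1 := hunr
  have hqM' : q ∣ N' * q := Dvd.intro_left N' rfl
  -- the main step, at a place `A` over `q` and a Frobenius lift `φ`
  have main : ∀ (A : ValuationSubring Kb) (hA : A.LiesOverPrime q) (φ : GQ')
      (hφ : A.IsFrobeniusAt φ q),
      (q : ZMod p) = 1 ∧ ∃ c : ZMod p, rhoM b φ = c • (1 : Matrix (Fin 2) (Fin 2) (ZMod p)) := by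
    intro A hA φ hφ
    have htor := htoric p hp5 W hΔ hcard hirr N' q h hq2 hqp hunr' S hN'S hMS hpS hΔS P hP0
      (fun ζ hζ x hx => hPid (N' * q) hMS ζ hζ x hx) A hA
    refine Fermat.Agent.GB.A.A6.Abs.caseA_abs_A1 (k := ZMod p) (G := GQ') h2
      (gal (N' * q) p) (rhoM b) (cyc p) hspan (eigQ (N' * q) p S hMS a) hQ0
      (fun g x hx => gal_mem_eigQ g hx)
      (fun g x hx => eigQ_rel hΔ hcard hirr S hMS hpS a (fun _ _ _ _ => rfl) b g hx)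
      (aLow N' q p).toAddMonoidHom (aUp N' q p).toAddMonoidHom
      (autEnd (wAut h : FK (N' * q) ≃ₐ[Kb] FK (N' * q)) p) (UEnd (N' * q) p hqM')
      (fun y => aUp_aLow_wAut h p y) (fun y => autEnd_wAut_autEnd_wAut h p y)
      (fun g y => (LinearMap.congr_fun (UEnd_comm_gal p hqM' g) y).symm)
      (fun x hx => end_mem_eigQ hmS _ (fun σ y => autEnd_wAut_gal h p σ y) hx)
      ?_ (↑(kerRed (N' * q) A p ⊓ kerRed₂ h A p) : Set (Additive (Kum Kb (FK (N' * q)) p)))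
      (fun x hx => htor x hx) φ (q : ZMod p) ?_ ?_ ?_
    · -- hnew
      have hdie : ∀ x ∈ eigQ (N' * q) p S hMS a, aLow N' q p x = 0 := fun x hx => by
        have h1 := kumHecke_aeval_dies S p hζ hMS hN'S hmS (aLow N' q p)
          (fun σ y => aLow_gal N' q p σ y) P hP0 x
        rwa [hPid (N' * q) hMS _ hζ x hx] at h1
      intro x hx
      exact ⟨hdie x hx, hdie _ (end_mem_eigQ hmS _ (fun σ y => autEnd_wAut_gal h p σ y) hx)⟩
    · -- q ≠ 0 in F_p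
      intro h0
      rw [ZMod.natCast_eq_zero_iff] at h0
      exact hqp ((Nat.prime_dvd_prime_iff_eq hp hq).1 h0).symm
    · -- hA1
      intro z hz
      have hqp' : ¬ q ∣ p := fun hd => hqp ((Nat.prime_dvd_prime_iff_eq hq hp).1 hd)
      have := Fermat.Agent.GB.A1.frobW_all (N' * q) q h p hqp' A hA φ hφ z hz.1 hz.2
      rw [Nat.cast_smul_eq_nsmul (ZMod p)]
      exact this
    · -- hdet
      rw [det_rhoM hΔ hcard hirr b φ, cyc_frob hq hqp hA hφ]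
  obtain ⟨A, φ, hA, hφ⟩ := Fermat.Agent.Common_helper32.exists_isFrobeniusAt q hq
  refine ⟨?_, fun A hA φ hφ => ?_⟩
  · have h1 := (main A hA φ hφ).1
    have h3 : ((q : ℕ) : ZMod p) = ((1 : ℕ) : ZMod p) := by rw [h1, Nat.cast_one]
    rw [ZMod.natCast_eq_natCast_iff'] at h3
    rw [h3, Nat.mod_eq_of_lt (by omega)]
  · obtain ⟨c, hc⟩ := (main A hA φ hφ).2
    exact ⟨c, (rhoM_eq_smul_one_iff b φ c).1 hc⟩

end Fermat.Agent.GB.A.A6.CaseA
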