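/-
GATE-B / CASE A, node A6, leaf (E-IN) (helper25, for helper35's board 5618): inertia acts trivially
on the `ρ̄`-eigenspace `Q = eigQ` of `Kum_p(F_M)` as soon as it acts trivially on `W[p]`.

By Boston–Lenstra–Ribet (`GH/S32/Blr.exists_algHom`), the relation `g + χ_p(g) g⁻¹ = tr ρ̄(g)` on `Q`
(`EigQ.eigQ_rel`) and absolute irreducibility (`ECDet.span_rhoM_eq_top`) make `Q` a module over
`M₂(𝔽_p)` compatibly with `G_ℚ`: there is an algebra hom `Φ : M₂(𝔽_p) → End(Q)` with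
`Φ(ρ̄ g) = g|_Q`.  Hence `ρ̄ σ = 1 ⟹ σ|_Q = 1`; more generally `ρ̄ σ = ρ̄ τ ⟹ σ|_Q = τ|_Q`.

* `eigQ_gal_eq_of_rho_eq` : `ρ̄ σ = ρ̄ τ ⟹ σ = τ` on `Q`;
* `eigQ_gal_eq_of_rho_eq_one` : `ρ̄ σ = 1 ⟹ σ = id` on `Q`;
* `eigQ_le_invSub` : `ρ̄` trivial on the inertia group of `A`  ⟹  `Q ≤ FP.invSub A p`
  (`= V^{I_A}`, the `hYI` input of `FP.le_toric`);
* `eigQ_le_invSub_of_isUnramifiedAt` : the same from the frozen-shape hypothesis
  `(residualGaloisRepOf …).IsUnramifiedAt q` of `GB/Top/S43Frey.CaseA38`, for every `A` over `q`.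
-/
import Mathlib
import Fermat.Agent.GB.A.A6.EigQ
import Fermat.Agent.GB.A.A6.Abs
import Fermat.Agent.GB.A.FP

set_option autoImplicit false
set_option linter.unusedSectionVars false

noncomputable section

namespace Fermat.Agent.GB.A.A6.Inertia

open AlgebraicCurve
open Fermat.Agent.GJ Fermat.Agent.GJ.KumGroup Fermat.Agent.GJ.Kum.KumType
open Fermat.Agent.GK.UQ Fermat.Agent.GK.New
open Fermat.Agent.GJ.CycChar Fermat.Agent.GB.A.A6.ECDet Fermat.Agent.GB.A.A6.EigQ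
open Fermat.Agent.GB.A.A6.Abs

local notation "GQ'" => (AlgebraicClosure ℚ ≃ₐ[ℚ] AlgebraicClosure ℚ)

variable {M : ℕ} [NeZero M] {p : ℕ} [Fact p.Prime] {W : WeierstrassCurve ℤ}

section Phi

variable (hΔ : W.Δ ≠ 0) (hcard : Nat.card (Tp W p) = p ^ 2) (hirr : W.ModRepIsIrreducible p)
  (hp2 : p ≠ 2) (S : Finset ℕ) (hMS : ∀ q : ℕ, q.Prime → q ∣ M → q ∈ S) (hpS : p ∈ S)
  (a : ℕ → ℤ) (ha : ∀ ℓ : ℕ, ℓ.Prime → ℓ ∉ S → W.IsGoodPrimeFor ℓ → a ℓ = W.apOfModel ℓ)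
include hΔ hcard hirr hp2 hpS ha

/-- **`Q` is an `M₂(𝔽_p)`-module compatibly with `G_ℚ`** (BLR): in an eigenbasis `b` of complex
conjugation, an algebra hom `Φ : M₂(𝔽_p) → End(Q)` with `Φ(ρ̄ g) = g|_Q`. -/
theorem exists_algHom_eigQ (b : Module.Basis (Fin 2) (ZMod p) (Tp W p))
    (h0 : rho W p complexConjugation (b 0) = b 0)
    (h1 : rho W p complexConjugation (b 1) = - b 1) :
    ∃ Φ : Matrix (Fin 2) (Fin 2) (ZMod p) →ₐ[ZMod p] Module.End (ZMod p) (eigQ M p S hMS a),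
      ∀ (g : GQ') (x : eigQ M p S hMS a), ((Φ (rhoM b g) x : eigQ M p S hMS a) :
        Additive (Kum Kb (FK M) p)) = gal M p g x := by
  have h2 : IsUnit (2 : ZMod p) := by
    rw [isUnit_iff_ne_zero]
    intro h
    have : ((2 : ℕ) : ZMod p) = 0 := by exact_mod_cast h
    rw [ZMod.natCast_eq_zero_iff] at this
    exact hp2 ((Nat.prime_dvd_prime_iff_eq (Fact.out : p.Prime) Nat.prime_two).1 this)
  have hspan := span_rhoM_eq_top hcard hirr hp2 b h0 h1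
  have hQG : ∀ g : GQ', ∀ x ∈ eigQ M p S hMS a, gal M p g x ∈ eigQ M p S hMS a :=
    fun g x hx => gal_mem_eigQ g hx
  obtain ⟨Φ, hΦ⟩ := Fermat.Agent.GH.S32.Blr.exists_algHom (ρ := rhoM b)
    (act := actSub (gal M p) (eigQ M p S hMS a) hQG) (δ := cyc p) h2 hspan (by
      intro g
      ext x
      simp only [LinearMap.add_apply, LinearMap.smul_apply, Module.End.one_apply,
        Submodule.coe_add, Submodule.coe_smul, actSub_apply]
      exact eigQ_rel hΔ hcard hirr S hMS hpS a ha b g x.2)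
  refine ⟨Φ, fun g x => ?_⟩
  rw [hΦ, actSub_apply]

/-- `ρ̄ σ = ρ̄ τ ⟹ σ = τ` on `Q`. -/
theorem eigQ_gal_eq_of_rho_eq {σ τ : GQ'} (hστ : rho W p σ = rho W p τ)
    {x : Additive (Kum Kb (FK M) p)} (hx : x ∈ eigQ M p S hMS a) :
    gal M p σ x = gal M p τ x := by
  obtain ⟨b, h0, h1⟩ := exists_basis_conj hΔ hcard hirr hp2
  obtain ⟨Φ, hΦ⟩ := exists_algHom_eigQ hΔ hcard hirr hp2 S hMS hpS a ha b h0 h1
  have e : rhoM b σ = rhoM b τ := by rw [rhoM_apply, rhoM_apply, hστ]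
  rw [← hΦ σ ⟨x, hx⟩, ← hΦ τ ⟨x, hx⟩, e]

/-- `ρ̄ σ = 1 ⟹ σ = id` on `Q`. -/
theorem eigQ_gal_eq_of_rho_eq_one {σ : GQ'} (hσ : rho W p σ = 1)
    {x : Additive (Kum Kb (FK M) p)} (hx : x ∈ eigQ M p S hMS a) :
    gal M p σ x = x := by
  have h := eigQ_gal_eq_of_rho_eq (M := M) hΔ hcard hirr hp2 S hMS hpS a ha (σ := σ) (τ := 1)
    (by rw [hσ, map_one]) hx
  rw [h, (gal M p).map_one]
  rfl

/-- **(E-IN)**: if `ρ̄_{W,p}` is trivial on the inertia group of `A`, the eigenspace `Q` consists of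
inertia-invariant classes: `Q ≤ V^{I_A}`. -/
theorem eigQ_le_invSub (A : ValuationSubring Kb)
    (hunr : ∀ σ ∈ A.inertiaSubgroupIn ℚ, rho W p σ = 1) :
    eigQ M p S hMS a ≤ Fermat.Agent.GB.A.FP.invSub (M := M) A p := by
  intro x hx σ hσ
  exact eigQ_gal_eq_of_rho_eq_one hΔ hcard hirr hp2 S hMS hpS a ha (hunr σ hσ) hx

/-- **(E-IN), frozen-hypothesis form**: the same from `IsUnramifiedAt q` of the residual
representation of `W` (the hypothesis of `GB/Top/S43Frey.CaseA38`), at every `A` over `q`. -/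
theorem eigQ_le_invSub_of_isUnramifiedAt
    (hker : GaloisFactorsThroughFiniteLevel
      (WeierstrassCurve.Affine.Point.galoisRepModuleEnd (K := AlgebraicClosure ℚ) ℚ
        (W.map (Int.castRingHom ℚ)) p))
    {q : ℕ}
    (hunr : ((W.map (Int.castRingHom ℚ)).residualGaloisRepOf p hcard hker).IsUnramifiedAt q)
    (A : ValuationSubring Kb) (hA : A.LiesOverPrime q) :
    eigQ M p S hMS a ≤ Fermat.Agent.GB.A.FP.invSub (M := M) A p :=
  eigQ_le_invSub hΔ hcard hirr hp2 S hMS hpS a ha A (fun σ hσ => hunr A hA σ hσ)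

end Phi

end Fermat.Agent.GB.A.A6.Inertia
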