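/-
GATE-B / CASE A, node A6, leaf (E3) (helper84, statement by helper35 board 5618):
**the `ρ̄`-eigenspace `eigQ` of `Kum_p(F_M)` is nonzero** when `W` is residually modular of
level `M`.

Route: helper61's residual eigensystem `θ̄ = Theta.theta D S … : 𝕋^S(M) → 𝔽_p`
(`θ̄ (T_ℓ) = a_ℓ(W)`), J2's export `EigAsm.eig M p : EIG M p` at `k0 := ZMod p` gives classes
`[u i]` and coefficients `c i` with `∑ c i ⊗ [u i] ≠ 0` in `𝔽_p ⊗_ℤ Kum` on which `T_ℓ` acts through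
`θ̄ (T_ℓ)`; `𝔽_p ⊗_ℤ Kum ≃ Kum` (`c ⊗ x ↦ c • x`) turns it into a nonzero vector of `eigQ`.
-/
import Mathlib
import Fermat.Agent.GB.A.A6.EigQ
import Fermat.Agent.GB.Setup.Theta
import Fermat.Agent.GJ.Kum.EigAdapter

set_option autoImplicit false
set_option linter.unusedSectionVars false

noncomputable section

namespace Fermat.Agent.GB.A.A6.Supply

open AlgebraicCurve TensorProduct CuspForm
open Fermat.Agent.GJ Fermat.Agent.GJ.KumGroup Fermat.Agent.GJ.Kum.KumType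
open Fermat.Agent.GJ.Kum.EigAdapter
open Fermat.Agent.GK.UQ Fermat.Agent.GK.New
open Fermat.Agent.GB.A.A6.EigQ
open Fermat.Agent.GB.Setup.RhoBar Fermat.Agent.GB.Setup.Theta

section Tensor

variable (p : ℕ) (V : Type*) [AddCommGroup V] [Module (ZMod p) V]

/-- `𝔽_p ⊗_ℤ V ≃ V`, `c ⊗ x ↦ c • x`, for an `𝔽_p`-vector space `V`. -/
def tensEquiv : ZMod p ⊗[ℤ] V ≃ₗ[ZMod p] V :=
  (tensorZModEquiv p (ZMod p) V).trans (TensorProduct.lid (ZMod p) V)

@[simp]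
theorem tensEquiv_tmul (c : ZMod p) (x : V) : tensEquiv p V (c ⊗ₜ[ℤ] x) = c • x := by
  rw [tensEquiv, LinearEquiv.trans_apply, tensorZModEquiv_tmul, TensorProduct.lid_tmul]

theorem tensEquiv_sum {n : ℕ} (c : Fin n → ZMod p) (x : Fin n → V) :
    tensEquiv p V (∑ i, c i ⊗ₜ[ℤ] x i) = ∑ i, c i • x i := by
  rw [map_sum]
  exact Finset.sum_congr rfl fun i _ => tensEquiv_tmul p V (c i) (x i)

end Tensor

/-- **(E3)**: `eigQ M p S hMS a ≠ ⊥` for the eigensystem `a ℓ = a_ℓ(W)` of a curve which is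
residually modular of level `M`. -/
theorem eigQ_ne_bot {M : ℕ} [NeZero M] {p : ℕ} [Fact p.Prime] (W : WeierstrassCurve ℤ)
    (hres : W.IsResiduallyModularOfLevel p M) (S : Finset ℕ)
    (hMS : ∀ q : ℕ, q.Prime → q ∣ M → q ∈ S) (hpS : p ∈ S)
    (hΔS : ∀ ℓ : ℕ, ℓ.Prime → (ℓ : ℤ) ∣ W.Δ → ℓ ∈ S)
    (a : ℕ → ℤ) (ha : ∀ ℓ : ℕ, ℓ.Prime → ℓ ∉ S → a ℓ = W.apOfModel ℓ) :
    eigQ M p S hMS a ≠ ⊥ := by
  obtain ⟨D⟩ := (nonempty_modData_iff W p M).1 hres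
  have hpS' : p ∈ (S : Set ℕ) := hpS
  have hMS' : ∀ q : ℕ, q.Prime → q ∣ M → q ∈ (S : Set ℕ) := hMS
  have hWS : ∀ q : ℕ, q.Prime → ¬ W.IsGoodPrimeFor q → q ∈ (S : Set ℕ) :=
    fun q hq hb => hΔS q hq (not_not.1 hb)
  obtain ⟨n, c, u, hne, hrel⟩ := Fermat.Agent.GJ.EigAsm.eig M p (S : Set ℕ) hMS' (ZMod p)
    (theta D (S : Set ℕ) hpS' hMS' hWS)
  -- the vector
  have hv0 : (∑ i, c i • (Additive.ofMul (Kum.mk (u i)) : Additive (Kum Kb (FK M) p))) ≠ 0 := by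
    rw [← tensEquiv_sum]
    exact (LinearEquiv.map_ne_zero_iff _).mpr hne
  have hv : (∑ i, c i • (Additive.ofMul (Kum.mk (u i)) : Additive (Kum Kb (FK M) p))) ∈
      eigQ M p S hMS a := by
    rw [mem_eigQ]
    intro i
    have hℓS : i.1 ∉ (S : Set ℕ) := i.2.2
    obtain ⟨u', hu', hrel'⟩ := hrel i.1 i.2.1 (PrimeIdx.not_dvd hMS i) hℓS
    have hT : ∀ j, kumTl M p i.2.1 (PrimeIdx.not_dvd hMS i)
        (Additive.ofMul (Kum.mk (u j))) = Additive.ofMul (Kum.mk (u' j)) := by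
      intro j
      have : NeZero i.1 := ⟨i.2.1.ne_zero⟩
      show TEnd _ _ (Additive.ofMul (Kum.mk (u j))) = _
      rw [TEnd_mk]
      refine congrArg (fun v => Additive.ofMul (Kum.mk v))
        (Subtype.ext (Units.ext (Subtype.ext ?_)))
      exact (hu' j).symm
    have h1 := congrArg (tensEquiv p (Additive (Kum Kb (FK M) p))) hrel'
    rw [map_smul] at h1
    unfold tens at h1
    rw [tensEquiv_sum, tensEquiv_sum, theta_T] at h1
    rw [map_sum]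
    simp only [map_smul, hT]
    rw [h1, ha i.1 i.2.1 i.2.2]
  intro hbot
  rw [hbot, Submodule.mem_bot] at hv
  exact hv0 hv

end Fermat.Agent.GB.A.A6.Supply
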