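/-
GATE-B / CASE A, node A6, (E5) continued (helper35): the `ToricStmt` binder of `CaseA.lean` from
the FP inputs (A3, A4, A5) — and CASE A in the S38 shape from the FP inputs ALONE.

* `FPInputs` : at every `(p ≥ 5, N', q ∥ N' q odd, q ≠ p, A ∣ q)`:
    (A3) some obstruction predicate `ObZero` with `FP.NormHyp` and the Eisenstein-twist rule
         `ObZero ((T_ℓ − (ℓ+1)) y)` for invariant `y`, every prime `ℓ ∤ N' q`;
    (A4) `FP.NodeHyp`;
    (A5) `FP.AbHyp` for every old-killer `t = P(T^{N' q})`, `P(T^{N'}) = 0`.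
* `toricStmt_of_fpInputs : FPInputs → ToricStmt` : `FP.le_toric` with `Y := eigQ`,
  `hYI := Inertia.eigQ_le_invSub` (helper25), `E := T_ℓ₀ − (ℓ₀ + 1)` at a non-Eisenstein prime
  `ℓ₀ ∉ S` (`GM/NonEis.exists_good_prime_ap_ne`), `t` the killer (identity on `eigQ`).
* `caseA38_of_fpInputs : FPInputs → GB.Top.S43Frey.CaseA38` : with helper79's `congr_all_of_cofinite`
  and helper84's `eigQ_ne_bot`.
-/
import Mathlib
import Fermat.Agent.GB.A.A6.CaseA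
import Fermat.Agent.GB.A.A6.Inertia
import Fermat.Agent.GB.A.A6.Supply
import Fermat.Agent.GB.Top.CongrAll
import Fermat.Agent.GB.A.FP
import Fermat.Agent.GM.NonEis.Main

set_option autoImplicit false
set_option linter.unusedSectionVars false
set_option linter.style.haveILetI false

noncomputable section

namespace Fermat.Agent.GB.A.A6.Toric

open AlgebraicCurve ModularCurve
open CuspForm ModularFormClass CongruenceSubgroup
open Fermat.Agent.GJ Fermat.Agent.GJ.KumGroup Fermat.Agent.GJ.Kum.KumType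
open Fermat.Agent.GK.UQ Fermat.Agent.GK.New Fermat.Agent.GK.Tate.KumHecke
open Fermat.Agent.GK.UqKronecker Fermat.Agent.GK.AL
open Fermat.Agent.GB.A Fermat.Agent.GB.A.A6.ECDet Fermat.Agent.GB.A.A6.EigQ
open Fermat.Agent.GB.A.A6.CaseA

/-- **The FP inputs** (A3 + A4 + A5), at every `(p, N', q, A)`. -/
def FPInputs : Prop :=
  ∀ (p : ℕ) [Fact p.Prime] (_ : 5 ≤ p) (N' q : ℕ) [NeZero N'] [Fact q.Prime]
    (h : ExactDvd q (N' * q)) (_ : q ≠ 2) (_ : q ≠ p)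
    (A : ValuationSubring Kb) (_ : A.LiesOverPrime q),
    (∃ ObZero : Additive (Kum Kb (FK (N' * q)) p) → Prop,
      FP.NormHyp h A p ObZero ∧
      ∀ (ℓ : ℕ) (hℓ : ℓ.Prime) (hℓM : ¬ ℓ ∣ N' * q),
        ∀ y ∈ FP.invSub (M := N' * q) A p,
          ObZero (kumTl (N' * q) p hℓ hℓM y - ((ℓ + 1 : ℕ) : ZMod p) • y)) ∧
    FP.NodeHyp h A p ∧
    ∀ (S : Finset ℕ) (hN'S : ∀ r : ℕ, r.Prime → r ∣ N' → r ∈ S)
      (hMS : ∀ r : ℕ, r.Prime → r ∣ N' * q → r ∈ S) (_ : ∀ r : ℕ, r.Prime → r ∣ p → r ∈ S)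
      (ζ : ℂ) (hζ : IsPrimitiveRoot ζ p)
      (P : MvPolynomial (PrimeIdx S) ℤ) (_ : MvPolynomial.aeval (TfamH hN'S) P = 0),
      FP.AbHyp h A p (kumHecke (N' * q) (↑S : Set ℕ) p hζ (MvPolynomial.aeval (TfamH hMS) P))

/-- `ToricStmt` from the FP inputs. -/
theorem toricStmt_of_fpInputs (hFP : FPInputs) : ToricStmt := by
  intro p _ hp5 W hΔ hcard hirr N' q _ _ h hq2 hqp hunr S hN'S hMS hpS hΔS P hP0 hPid A hA
  have hp : p.Prime := Fact.out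
  have hp2 : p ≠ 2 := by omega
  have hmS : ∀ r : ℕ, r.Prime → r ∣ p → r ∈ S := fun r hr hrp =>
    ((Nat.prime_dvd_prime_iff_eq hr hp).1 hrp) ▸ hpS
  have hζ : IsPrimitiveRoot (Complex.exp (2 * Real.pi * Complex.I / p)) p :=
    Complex.isPrimitiveRoot_exp p (NeZero.ne p)
  obtain ⟨⟨ObZero, hA3, hE⟩, hA4, hA5⟩ := hFP p hp5 N' q h hq2 hqp A hA
  -- a non-Eisenstein prime outside `S`
  haveI : (W.map (Int.castRingHom ℚ)).IsElliptic := by
    refine ⟨?_⟩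
    rw [WeierstrassCurve.map_Δ]
    exact IsUnit.mk0 _ (by simpa using hΔ)
  have hmodel : W.IsIntegralModelOf (W.map (Int.castRingHom ℚ)) := ⟨1, by rw [one_smul]⟩
  obtain ⟨ℓ₀, hℓ₀, hℓ₀S, -, -, hne⟩ :=
    Fermat.Agent.GM.NonEis.exists_good_prime_ap_ne (W.map (Int.castRingHom ℚ)) hmodel hp hp2
      hirr S
  have hℓ₀M : ¬ ℓ₀ ∣ N' * q := fun hd => hℓ₀S (hMS ℓ₀ hℓ₀ hd)
  set a : ℕ → ℤ := fun ℓ => W.apOfModel ℓ with ha
  set c : ZMod p := ((a ℓ₀ : ℤ) : ZMod p) - ((ℓ₀ + 1 : ℕ) : ZMod p) with hc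
  have hc0 : c ≠ 0 := by
    rw [hc, sub_ne_zero]
    intro h1
    apply hne
    rw [h1]
    push_cast
    ring
  set E : Module.End (ZMod p) (Additive (Kum Kb (FK (N' * q)) p)) :=
    kumTl (N' * q) p hℓ₀ hℓ₀M - ((ℓ₀ + 1 : ℕ) : ZMod p) • 1 with hEdef
  have hEQ : ∀ y ∈ eigQ (N' * q) p S hMS a, E y = c • y := fun y hy => by
    rw [hEdef, LinearMap.sub_apply, LinearMap.smul_apply, Module.End.one_apply,
      kumTl_eq_of_mem hy hℓ₀ hℓ₀S hℓ₀M, hc, sub_smul]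
  refine FP.le_toric (h := h) (A := A) (m := p) (ObZero := ObZero)
    (t := kumHecke (N' * q) (↑S : Set ℕ) p hζ (MvPolynomial.aeval (TfamH hMS) P)) (E := E)
    hA3 hA4 (hA5 S hN'S hMS hmS _ hζ P hP0) ?_ (eigQ (N' * q) p S hMS a) ?_ ?_ ?_
  · intro y hy
    have := hE ℓ₀ hℓ₀ hℓ₀M y hy
    rw [hEdef, LinearMap.sub_apply, LinearMap.smul_apply, Module.End.one_apply]
    exact this
  · exact Fermat.Agent.GB.A.A6.Inertia.eigQ_le_invSub hΔ hcard hirr hp2 S hMS hpS a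
      (fun _ _ _ _ => rfl) A (hunr A hA)
  · intro y hy
    refine ⟨c⁻¹ • y, Submodule.smul_mem _ _ hy, ?_⟩
    rw [hEQ _ (Submodule.smul_mem _ _ hy), smul_smul, mul_inv_cancel₀ hc0, one_smul]
  · intro y hy
    exact ⟨y, hy, hPid _ hζ y hy⟩

/-- **CASE A in the S38 shape from the FP inputs alone.** -/
theorem caseA38_of_fpInputs (hFP : FPInputs) : Fermat.Agent.GB.Top.S43Frey.CaseA38 :=
  caseA38_of
    (fun W hΔ p N hp f 𝔪 hf h𝔪 hp𝔪 B h =>
      Fermat.Agent.GB.Top.CongrAll.congr_all_of_cofinite W hΔ p N hp f 𝔪 hf h𝔪 hp𝔪 B h)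
    (fun _ _ _ _ W hres S hMS hpS hΔS =>
      Fermat.Agent.GB.A.A6.Supply.eigQ_ne_bot W hres S hMS hpS hΔS _ (fun _ _ _ => rfl))
    (toricStmt_of_fpInputs hFP)

end Fermat.Agent.GB.A.A6.Toric
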